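import Mathlib

/-!
# S34 (W10), package (LOC): the abstract nodal local input (helper26)

Setting of `Fermat.Agent.S18x.Spec.H26.h26_spec` with a ring `V` which need NOT be a valuation
ring (in the application `V = V_∞ ∩ V_0`, the intersection of the two Gauss valuation rings of
the function field `F` of `X₀(qM)` over a number field, `B` a chart of the normal model, `π` a
uniformiser of the base, `τ` an element of the inertia group).

Hypotheses on `τ : F ≃+* F`: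
* `τ B ⊆ B`, `τ V ⊆ V`, `τ π = ε π` with `ε` a unit of `B`;
* (TRIV) `τ v - v ∈ π V` for `v ∈ V` (inertia acts trivially on the residue ring);
* (U) `τ g / g ∈ V` and `g / τ g ∈ V` for all `g ≠ 0` (`τ` preserves both valuations).

For `g : F` put `δ² g := τ (τ g) * g / (τ g) ^ 2` (the second difference).

* `h26_secondDiff_sub_one` : `δ² g - 1 ∈ π V` for every `g ≠ 0`;
* `h26_nodal_loc` : if `f = d ^ m * w₀` with `w₀, w₀⁻¹ ∈ B_𝔫[1/π]` (the divisor of `f` is `m` times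
  a divisor which is principal at `𝔫` modulo vertical components), then `δ² f` satisfies the
  local input (LOC) of `h26_spec` at `𝔫`, in exactly the spelling of `h26_spec`.
-/

set_option autoImplicit false

namespace Fermat.Agent.S34x.Loc.H26

variable {F : Type*} [Field F]

/-- The second difference `τ² g · g / (τ g)²`. -/
noncomputable def secondDiff (τ : F ≃+* F) (g : F) : F := τ (τ g) * g / (τ g) ^ 2

theorem secondDiff_mul (τ : F ≃+* F) (a b : F) :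
    secondDiff τ (a * b) = secondDiff τ a * secondDiff τ b := by
  unfold secondDiff
  rw [map_mul, map_mul]
  by_cases ha : a = 0
  · simp [ha]
  by_cases hb : b = 0
  · simp [hb]
  have h1 : τ a ≠ 0 := (map_ne_zero τ).mpr ha
  have h2 : τ b ≠ 0 := (map_ne_zero τ).mpr hb
  field_simp

theorem secondDiff_pow (τ : F ≃+* F) (a : F) (m : ℕ) :
    secondDiff τ (a ^ m) = secondDiff τ a ^ m := by
  induction m with
  | zero =>
    unfold secondDiff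
    simp
  | succ n ih => rw [pow_succ, secondDiff_mul, ih, pow_succ]

theorem secondDiff_ne_zero (τ : F ≃+* F) {g : F} (hg : g ≠ 0) : secondDiff τ g ≠ 0 := by
  unfold secondDiff
  have h1 : τ g ≠ 0 := (map_ne_zero τ).mpr hg
  have h2 : τ (τ g) ≠ 0 := (map_ne_zero τ).mpr h1
  exact div_ne_zero (mul_ne_zero h2 hg) (pow_ne_zero 2 h1)

/-- `δ² g = τ u / u` for `u = τ g / g`. -/
theorem secondDiff_eq (τ : F ≃+* F) {g : F} (hg : g ≠ 0) :
    secondDiff τ g = τ (τ g / g) * (g / τ g) := by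
  unfold secondDiff
  have h1 : τ g ≠ 0 := (map_ne_zero τ).mpr hg
  rw [map_div₀]
  field_simp

/-- **The second difference is `≡ 1 mod π V`.** -/
theorem h26_secondDiff_sub_one (V : Subring F) (π : F) (τ : F ≃+* F)
    (htriv : ∀ v ∈ V, ∃ c ∈ V, τ v - v = π * c)
    (hU : ∀ g : F, g ≠ 0 → τ g / g ∈ V ∧ g / τ g ∈ V)
    {g : F} (hg : g ≠ 0) :
    ∃ c ∈ V, secondDiff τ g - 1 = π * c := by
  have h1 : τ g ≠ 0 := (map_ne_zero τ).mpr hg
  obtain ⟨hu, hu'⟩ := hU g hg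
  obtain ⟨c₀, hc₀, hc⟩ := htriv _ hu
  refine ⟨c₀ * (g / τ g), V.mul_mem hc₀ hu', ?_⟩
  rw [secondDiff_eq τ hg]
  have e : τ (τ g / g) * (g / τ g) - 1 = (τ (τ g / g) - τ g / g) * (g / τ g) := by
    field_simp
  rw [e, hc]
  ring

/-- The inverse of the second difference is `≡ 1 mod π V`. -/
theorem h26_secondDiff_inv_sub_one (V : Subring F) (π : F) (τ : F ≃+* F)
    (htriv : ∀ v ∈ V, ∃ c ∈ V, τ v - v = π * c)
    (hU : ∀ g : F, g ≠ 0 → τ g / g ∈ V ∧ g / τ g ∈ V)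
    {g : F} (hg : g ≠ 0) :
    ∃ c ∈ V, (secondDiff τ g)⁻¹ - 1 = π * c := by
  have h1 : τ g ≠ 0 := (map_ne_zero τ).mpr hg
  have h2 : τ (τ g) ≠ 0 := (map_ne_zero τ).mpr h1
  obtain ⟨hu, -⟩ := hU g hg
  obtain ⟨-, hv'⟩ := hU (τ g) h1
  obtain ⟨c₀, hc₀, hc⟩ := htriv _ hu
  refine ⟨-(c₀ * (τ g / τ (τ g))), V.neg_mem (V.mul_mem hc₀ hv'), ?_⟩
  have e : (secondDiff τ g)⁻¹ - 1 = -((τ (τ g / g) - τ g / g) * (τ g / τ (τ g))) := by
    unfold secondDiff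
    rw [map_div₀]
    field_simp
    ring
  rw [e, hc]
  ring

section Loc

variable (B V : Subring F) (π : F)

/-- The element form of `x ∈ B_𝔫[1/π]`. -/
def InLoc (𝔫 : Ideal B) (x : F) : Prop :=
  ∃ s : B, s ∉ 𝔫 ∧ ∃ k : ℕ, (s : F) * π ^ k * x ∈ B

variable {B V π}

theorem InLoc.mul {𝔫 : Ideal B} [𝔫.IsPrime] {x y : F} (hx : InLoc B π 𝔫 x)
    (hy : InLoc B π 𝔫 y) : InLoc B π 𝔫 (x * y) := by
  obtain ⟨s, hs, k, hsk⟩ := hx
  obtain ⟨t, ht, l, htl⟩ := hy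
  refine ⟨s * t, fun h => ?_, k + l, ?_⟩
  · rcases Ideal.IsPrime.mem_or_mem inferInstance h with h | h
    · exact hs h
    · exact ht h
  · have e : ((s * t : B) : F) * π ^ (k + l) * (x * y) =
        ((s : F) * π ^ k * x) * ((t : F) * π ^ l * y) := by
      push_cast
      ring
    rw [e]
    exact B.mul_mem hsk htl

/-- An element of `V ∩ B_𝔫[1/π]` lies in `B_𝔫` (iterated saturation). -/
theorem InLoc.exists_mul_mem (hBV : B ≤ V) (hπB : π ∈ B)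
    (hsat : ∀ v ∈ V, π * v ∈ B → v ∈ B) {𝔫 : Ideal B} {x : F} (hx : InLoc B π 𝔫 x)
    (hxV : x ∈ V) : ∃ s : B, s ∉ 𝔫 ∧ (s : F) * x ∈ B := by
  obtain ⟨s, hs, k, hsk⟩ := hx
  refine ⟨s, hs, ?_⟩
  have hsx : (s : F) * x ∈ V := V.mul_mem (hBV s.2) hxV
  have key : ∀ k : ℕ, π ^ k * ((s : F) * x) ∈ B → (s : F) * x ∈ B := by
    intro k
    induction k with
    | zero => intro h; simpa using h
    | succ n ih =>
      intro h
      refine ih (hsat _ (V.mul_mem (V.pow_mem (hBV hπB) n) hsx) ?_)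
      have e : π * (π ^ n * ((s : F) * x)) = π ^ (n + 1) * ((s : F) * x) := by ring
      rw [e]
      exact h
  refine key k ?_
  have e : π ^ k * ((s : F) * x) = (s : F) * π ^ k * x := by ring
  rw [e]
  exact hsk

/-- `τ` preserves `B_𝔫[1/π]` (element form). -/
theorem InLoc.map (hBV : B ≤ V) (hπB : π ∈ B) (hsat : ∀ v ∈ V, π * v ∈ B → v ∈ B)
    (τ : F ≃+* F) (hτB : ∀ b ∈ B, τ b ∈ B)
    (ε ε' : F) (hεB : ε ∈ B) (hε'B : ε' ∈ B) (hεε' : ε * ε' = 1) (hε : τ π = ε * π)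
    (htriv : ∀ v ∈ V, ∃ c ∈ V, τ v - v = π * c)
    {𝔫 : Ideal B} [𝔫.IsPrime] (hπ𝔫 : (⟨π, hπB⟩ : B) ∈ 𝔫) {x : F} (hx : InLoc B π 𝔫 x) :
    InLoc B π 𝔫 (τ x) := by
  obtain ⟨s, hs, k, hsk⟩ := hx
  have hτs : (⟨τ s, hτB _ s.2⟩ : B) ∉ 𝔫 := by
    intro h
    obtain ⟨c, hc, hcs⟩ := htriv (s : F) (hBV s.2)
    have hcB : c ∈ B := hsat c hc (by
      rw [← hcs]
      exact B.sub_mem (hτB _ s.2) s.2)
    have e : s = (⟨τ s, hτB _ s.2⟩ : B) - (⟨π, hπB⟩ : B) * ⟨c, hcB⟩ := by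
      apply Subtype.ext
      push_cast
      rw [← hcs]
      ring
    apply hs
    rw [e]
    exact 𝔫.sub_mem h (𝔫.mul_mem_right _ hπ𝔫)
  have hεn : (⟨ε, hεB⟩ : B) ∉ 𝔫 := by
    intro h
    have h1 : (1 : B) ∈ 𝔫 := by
      have e : (1 : B) = (⟨ε, hεB⟩ : B) * ⟨ε', hε'B⟩ := by
        apply Subtype.ext
        push_cast
        exact hεε'.symm
      rw [e]
      exact 𝔫.mul_mem_right _ h
    exact (Ideal.IsPrime.ne_top inferInstance) ((Ideal.eq_top_iff_one 𝔫).mpr h1)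
  have hεk : ∀ k : ℕ, (⟨ε, hεB⟩ : B) ^ k ∉ 𝔫 := fun k h =>
    hεn (Ideal.IsPrime.mem_of_pow_mem inferInstance k h)
  refine ⟨(⟨τ s, hτB _ s.2⟩ : B) * (⟨ε, hεB⟩ : B) ^ k, fun h => ?_, k, ?_⟩
  · rcases Ideal.IsPrime.mem_or_mem inferInstance h with h | h
    · exact hτs h
    · exact hεk k h
  · have e : (((⟨τ s, hτB _ s.2⟩ : B) * (⟨ε, hεB⟩ : B) ^ k : B) : F) * π ^ k * τ x =
        τ ((s : F) * π ^ k * x) := by
      push_cast
      rw [map_mul, map_mul, map_pow, hε]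
      ring
    rw [e]
    exact hτB _ hsk

end Loc

/-- **The abstract nodal (LOC).**  If `f = d ^ m * w₀` with `w₀, w₀⁻¹ ∈ B_𝔫[1/π]`, then the second
difference `δ² f` satisfies the local input of `h26_spec` at `𝔫`. -/
theorem h26_nodal_loc (B V : Subring F) (hBV : B ≤ V) (π : F) (hπB : π ∈ B)
    (hsat : ∀ v ∈ V, π * v ∈ B → v ∈ B)
    (τ : F ≃+* F) (hτB : ∀ b ∈ B, τ b ∈ B)
    (ε ε' : F) (hεB : ε ∈ B) (hε'B : ε' ∈ B) (hεε' : ε * ε' = 1) (hε : τ π = ε * π)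
    (htriv : ∀ v ∈ V, ∃ c ∈ V, τ v - v = π * c)
    (hU : ∀ g : F, g ≠ 0 → τ g / g ∈ V ∧ g / τ g ∈ V)
    (m : ℕ) (𝔫 : Ideal B) [𝔫.IsPrime] (hπ𝔫 : (⟨π, hπB⟩ : B) ∈ 𝔫)
    (f d w₀ : F) (hd : d ≠ 0) (hw₀ : w₀ ≠ 0) (hf : f = d ^ m * w₀)
    (hLP : InLoc B π 𝔫 w₀) (hLP' : InLoc B π 𝔫 w₀⁻¹) :
    ∃ (h : F) (s : B), s ∉ 𝔫 ∧ (∃ c ∈ V, h - 1 = π * c) ∧
      (s : F) * secondDiff τ f * h ^ m ∈ B := by
  have h1 : τ w₀ ≠ 0 := (map_ne_zero τ).mpr hw₀
  have h2 : τ (τ w₀) ≠ 0 := (map_ne_zero τ).mpr h1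
  -- the second difference of `w₀` lies in `V ∩ B_𝔫[1/π]`
  have hV : secondDiff τ w₀ ∈ V := by
    have e : secondDiff τ w₀ = (τ (τ w₀) / τ w₀) * (w₀ / τ w₀) := by
      unfold secondDiff
      field_simp
    rw [e]
    exact V.mul_mem (hU _ h1).1 (hU _ hw₀).2
  have hmap := fun {x : F} (hx : InLoc B π 𝔫 x) =>
    InLoc.map hBV hπB hsat τ hτB ε ε' hεB hε'B hεε' hε htriv hπ𝔫 hx
  have hL : InLoc B π 𝔫 (secondDiff τ w₀) := by
    have e : secondDiff τ w₀ = τ (τ w₀) * w₀ * (τ w₀⁻¹ * τ w₀⁻¹) := by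
      unfold secondDiff
      rw [map_inv₀]
      field_simp
    rw [e]
    exact ((hmap (hmap hLP)).mul hLP).mul ((hmap hLP').mul (hmap hLP'))
  obtain ⟨s, hs, hsB⟩ := InLoc.exists_mul_mem hBV hπB hsat hL hV
  obtain ⟨c, hc, hch⟩ := h26_secondDiff_inv_sub_one V π τ htriv hU hd
  refine ⟨(secondDiff τ d)⁻¹, s, hs, ⟨c, hc, hch⟩, ?_⟩
  have e : (s : F) * secondDiff τ f * (secondDiff τ d)⁻¹ ^ m = (s : F) * secondDiff τ w₀ := by
    rw [hf, secondDiff_mul, secondDiff_pow]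
    have hne : secondDiff τ d ^ m ≠ 0 := pow_ne_zero m (secondDiff_ne_zero τ hd)
    rw [inv_pow]
    field_simp
  rw [e]
  exact hsB

end Fermat.Agent.S34x.Loc.H26
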