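import Mathlib
import Fermat.Agent.S18x.Spec.H26_Spec
import Fermat.Agent.S34x.Loc.H26_NodalLoc

/-!
# S34 (W10): the abstract Kummer theorem at prime powers, and the second-difference theorem at
prime powers (helper26)

Setting of `Fermat.Agent.S18x.Spec.H26.h26_spec` (`V ⊆ F` ANY integrally closed subring).

* `LocAt B V π M 𝔫 w` : the local input of `h26_spec` at `𝔫` for the exponent `M`;
* `h26_spec_pow` : if `w ≡ 1 mod π₀ V` satisfies (LOC) for the exponent `p ^ n` at every closed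
  point of the special fibre of the two charts, then `w = g ^ (p ^ n)` with `g ≡ 1 mod π₀ V`.
  Extra hypotheses (supplied by the geometry):
  - `hconstAll` : `hconst` of `h26_spec` for every `g : F` which is not a `p`-th power;
  - `hunit` : there is a closed point `𝔫₀` of the first chart (a crossing point) such that every
    `v ∈ V` regular at `𝔫₀` with `v ^ p ≡ 1 mod π₀ V` is `≡ ζ mod π₀ V` for a `p`-th root of unity
    `ζ ∈ O` (the two residue constants of `v` agree at a crossing point).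
* `h26_ss_pow` : the second difference `δ² f` of a function `f` with (LP) for the exponent `p ^ n`
  at every closed point is a `p ^ n`-th power in `F`.
-/

set_option autoImplicit false
set_option linter.style.haveILetI false

open Polynomial

namespace Fermat.Agent.S34x.Loc.H26

open Fermat.Agent.S18x.Spec.H26

section Def

variable {F : Type*} [Field F]

/-- The local input (LOC) of `h26_spec` at `𝔫` for the exponent `M`. -/
def LocAt (B V : Subring F) (π : F) (M : ℕ) (𝔫 : Ideal B) (w : F) : Prop :=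
  ∃ (h : F) (s : B), s ∉ 𝔫 ∧ (∃ c ∈ V, h - 1 = π * c) ∧ (s : F) * w * h ^ M ∈ B

/-- `h ≡ 1 mod π V` implies `h ^ k ≡ 1 mod π V`. -/
theorem h26_pow_sub_one (V : Subring F) (π : F) (hπV : π ∈ V) {h : F}
    (hh : ∃ c ∈ V, h - 1 = π * c) (k : ℕ) : ∃ c ∈ V, h ^ k - 1 = π * c := by
  obtain ⟨c, hc, hch⟩ := hh
  have hhV : h ∈ V := by
    have e : h = 1 + π * c := by rw [← hch]; ring
    rw [e]
    exact V.add_mem V.one_mem (V.mul_mem hπV hc)
  induction k with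
  | zero => exact ⟨0, V.zero_mem, by simp⟩
  | succ k ih =>
    obtain ⟨c', hc', hck⟩ := ih
    refine ⟨c' * h + c, V.add_mem (V.mul_mem hc' hhV) hc, ?_⟩
    have e : h ^ (k + 1) - 1 = (h ^ k - 1) * h + (h - 1) := by ring
    rw [e, hck, hch]
    ring

end Def

variable {O F : Type*} [CommRing O] [IsDomain O] [IsIntegrallyClosed O] [IsNoetherianRing O]
  [Field F] [CharZero F] [Algebra O F]

/-- A power of an element of `F` lies in the chart only if the element does. -/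
theorem h26_chart_mem_of_pow_mem (j : F) {x : F} {k : ℕ} (hk : 0 < k)
    (hx : x ^ k ∈ (chart O j).toSubring) : x ∈ (chart O j).toSubring := by
  have hint : IsIntegral (chart O j).toSubring x := by
    refine ⟨X ^ k - C ⟨x ^ k, hx⟩, monic_X_pow_sub_C _ hk.ne', ?_⟩
    simp only [eval₂_sub, eval₂_X_pow, eval₂_C]
    exact sub_self _
  exact h26_closure_ic (O := O) {j} _ (fun _ => Iff.rfl) x hint

/-- (LOC) for the exponent `p * M` of `g ^ M`... : from `s * g ^ M * h ^ (M * p) ∈ B` to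
`s * g * h ^ p ∈ B`. -/
theorem h26_locAt_root (j : F) (V : Subring F) (π : F) (p M : ℕ) (hM : 0 < M)
    (𝔫 : Ideal (chart O j).toSubring) {g : F}
    (h : LocAt (chart O j).toSubring V π (M * p) 𝔫 (g ^ M)) :
    ∃ (h : F) (s : (chart O j).toSubring), s ∉ 𝔫 ∧ (∃ c ∈ V, h - 1 = π * c) ∧
      (s : F) * g * h ^ p ∈ (chart O j).toSubring := by
  obtain ⟨h, s, hs, hh, hmem⟩ := h
  refine ⟨h, s, hs, hh, ?_⟩
  apply h26_chart_mem_of_pow_mem (O := O) j hM
  have e : ((s : F) * g * h ^ p) ^ M = (s : F) ^ (M - 1) * ((s : F) * g ^ M * h ^ (M * p)) := by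
    have hM' : M = (M - 1) + 1 := by omega
    rw [mul_pow, mul_pow, ← pow_mul, mul_comm p M]
    nth_rewrite 1 [hM']
    rw [pow_succ]
    ring
  rw [e]
  exact Subring.mul_mem _ (Subring.pow_mem _ s.2 _) hmem

/-- **The abstract Kummer theorem at prime powers.** -/
theorem h26_spec_pow (π₀ : O) (hπ₀ : Prime π₀) (j j' : F) (hjj' : j * j' = 1)
    (hj : Transcendental O j) (hfinF : H26FinOver O j)
    (V : Subring F) (hVic : ∀ y : F, IsIntegral V y → y ∈ V)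
    (hOV : ∀ c : O, algebraMap O F c ∈ V) (hjV : j ∈ V) (hj'V : j' ∈ V)
    (hπV : ∀ v ∈ V, algebraMap O F π₀ * v ≠ 1)
    (hsat₁ : ∀ v ∈ V, algebraMap O F π₀ * v ∈ chart O j → v ∈ chart O j)
    (hsat₂ : ∀ v ∈ V, algebraMap O F π₀ * v ∈ chart O j' → v ∈ chart O j')
    (hsat₁₂ : ∀ v ∈ V, algebraMap O F π₀ * v ∈ chart₁₂ O j j' → v ∈ chart₁₂ O j j')
    (p : ℕ) (hp : p.Prime) (μ₀ : O) (hμ : μ₀ * (p : O) = 1)
    (hconstAll : ∀ g : F, (∀ y : F, y ^ p ≠ g) →
      ∀ x : AdjoinRoot (X ^ p - C g : F[X]), IsIntegral O x →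
        ∃ c : O, algebraMap O (AdjoinRoot (X ^ p - C g : F[X])) c = x)
    (𝔫₀ : Ideal (chart O j).toSubring) (h𝔫₀ : 𝔫₀.IsMaximal)
    (hπ𝔫₀ : (⟨algebraMap O F π₀, (chart O j).algebraMap_mem π₀⟩ : (chart O j).toSubring) ∈ 𝔫₀)
    (hunit : ∀ v ∈ V, (∃ s : (chart O j).toSubring, s ∉ 𝔫₀ ∧ (s : F) * v ∈ (chart O j).toSubring) →
      (∃ c ∈ V, v ^ p - 1 = algebraMap O F π₀ * c) →
      ∃ ζ : O, ζ ^ p = 1 ∧ ∃ c ∈ V, v - algebraMap O F ζ = algebraMap O F π₀ * c)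
    (n : ℕ) (w : F) (hw : ∃ c ∈ V, w - 1 = algebraMap O F π₀ * c)
    (hLOC₁ : ∀ 𝔫 : Ideal (chart O j).toSubring, 𝔫.IsMaximal →
      (⟨algebraMap O F π₀, (chart O j).algebraMap_mem π₀⟩ : (chart O j).toSubring) ∈ 𝔫 →
      LocAt (chart O j).toSubring V (algebraMap O F π₀) (p ^ n) 𝔫 w)
    (hLOC₂ : ∀ 𝔫 : Ideal (chart O j').toSubring, 𝔫.IsMaximal →
      (⟨algebraMap O F π₀, (chart O j').algebraMap_mem π₀⟩ : (chart O j').toSubring) ∈ 𝔫 →
      LocAt (chart O j').toSubring V (algebraMap O F π₀) (p ^ n) 𝔫 w) :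
    ∃ g : F, g ^ (p ^ n) = w ∧ ∃ c ∈ V, g - 1 = algebraMap O F π₀ * c := by
  have hπVmem : algebraMap O F π₀ ∈ V := hOV π₀
  induction n generalizing w with
  | zero => exact ⟨w, by simp, hw⟩
  | succ n ih =>
    -- (LOC) for the exponent `p ^ n`, with `h ^ p` in place of `h`
    have hL₁ : ∀ 𝔫 : Ideal (chart O j).toSubring, 𝔫.IsMaximal →
        (⟨algebraMap O F π₀, (chart O j).algebraMap_mem π₀⟩ : (chart O j).toSubring) ∈ 𝔫 →
        LocAt (chart O j).toSubring V (algebraMap O F π₀) (p ^ n) 𝔫 w := by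
      intro 𝔫 h𝔫 hπ𝔫
      obtain ⟨h, s, hs, hh, hmem⟩ := hLOC₁ 𝔫 h𝔫 hπ𝔫
      refine ⟨h ^ p, s, hs, h26_pow_sub_one V _ hπVmem hh p, ?_⟩
      rw [← pow_mul, mul_comm p (p ^ n), ← pow_succ]
      exact hmem
    have hL₂ : ∀ 𝔫 : Ideal (chart O j').toSubring, 𝔫.IsMaximal →
        (⟨algebraMap O F π₀, (chart O j').algebraMap_mem π₀⟩ : (chart O j').toSubring) ∈ 𝔫 →
        LocAt (chart O j').toSubring V (algebraMap O F π₀) (p ^ n) 𝔫 w := by
      intro 𝔫 h𝔫 hπ𝔫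
      obtain ⟨h, s, hs, hh, hmem⟩ := hLOC₂ 𝔫 h𝔫 hπ𝔫
      refine ⟨h ^ p, s, hs, h26_pow_sub_one V _ hπVmem hh p, ?_⟩
      rw [← pow_mul, mul_comm p (p ^ n), ← pow_succ]
      exact hmem
    obtain ⟨g, hgw, v, hvV, hgv⟩ := ih w hw hL₁ hL₂
    have hpn : 0 < p ^ n := pow_pos hp.pos n
    -- (LOC) at the exponent `p` for `g`
    have hG₁ : ∀ 𝔫 : Ideal (chart O j).toSubring, 𝔫.IsMaximal →
        (⟨algebraMap O F π₀, (chart O j).algebraMap_mem π₀⟩ : (chart O j).toSubring) ∈ 𝔫 →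
        ∃ (h : F) (s : (chart O j).toSubring), s ∉ 𝔫 ∧
          (∃ c ∈ V, h - 1 = algebraMap O F π₀ * c) ∧
          (s : F) * g * h ^ p ∈ (chart O j).toSubring := by
      intro 𝔫 h𝔫 hπ𝔫
      refine h26_locAt_root (O := O) j V _ p (p ^ n) hpn 𝔫 ?_
      rw [hgw, ← pow_succ]
      exact hLOC₁ 𝔫 h𝔫 hπ𝔫
    have hG₂ : ∀ 𝔫 : Ideal (chart O j').toSubring, 𝔫.IsMaximal →
        (⟨algebraMap O F π₀, (chart O j').algebraMap_mem π₀⟩ : (chart O j').toSubring) ∈ 𝔫 →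
        ∃ (h : F) (s : (chart O j').toSubring), s ∉ 𝔫 ∧
          (∃ c ∈ V, h - 1 = algebraMap O F π₀ * c) ∧
          (s : F) * g * h ^ p ∈ (chart O j').toSubring := by
      intro 𝔫 h𝔫 hπ𝔫
      refine h26_locAt_root (O := O) j' V _ p (p ^ n) hpn 𝔫 ?_
      rw [hgw, ← pow_succ]
      exact hLOC₂ 𝔫 h𝔫 hπ𝔫
    -- `g` is a `p`-th power
    have hroot : ∃ g₁ : F, g₁ ^ p = g := by
      by_contra hne
      have hne' : ∀ y : F, y ^ p ≠ g := fun y hy => hne ⟨y, hy⟩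
      exact hne (h26_spec π₀ hπ₀ j j' hjj' hj hfinF V hVic hOV hjV hj'V hπV hsat₁ hsat₂ hsat₁₂
        p hp μ₀ hμ g v hvV hgv hG₁ hG₂ (hconstAll g hne'))
    obtain ⟨g₁, hg₁⟩ := hroot
    -- normalisation of `g₁`
    have hgV : g ∈ V := by
      have e : g = 1 + algebraMap O F π₀ * v := by rw [← hgv]; ring
      rw [e]
      exact V.add_mem V.one_mem (V.mul_mem hπVmem hvV)
    have hg₁V : g₁ ∈ V := by
      apply hVic
      refine ⟨X ^ p - C ⟨g, hgV⟩, monic_X_pow_sub_C _ hp.ne_zero, ?_⟩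
      simp only [eval₂_sub, eval₂_X_pow, eval₂_C]
      rw [hg₁]
      exact sub_self _
    obtain ⟨h, s, hs, ⟨c, hc, hch⟩, hmem⟩ := hG₁ 𝔫₀ h𝔫₀ hπ𝔫₀
    have hhV : h ∈ V := by
      have e : h = 1 + algebraMap O F π₀ * c := by rw [← hch]; ring
      rw [e]
      exact V.add_mem V.one_mem (V.mul_mem hπVmem hc)
    have hreg : (s : F) * (g₁ * h) ∈ (chart O j).toSubring := by
      apply h26_chart_mem_of_pow_mem (O := O) j hp.pos
      have e : ((s : F) * (g₁ * h)) ^ p = (s : F) ^ (p - 1) * ((s : F) * g * h ^ p) := by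
        have hp' : p = (p - 1) + 1 := by have := hp.pos; omega
        rw [mul_pow, mul_pow, hg₁]
        nth_rewrite 1 [hp']
        rw [pow_succ]
        ring
      rw [e]
      exact Subring.mul_mem _ (Subring.pow_mem _ s.2 _) hmem
    have hpow : ∃ c ∈ V, (g₁ * h) ^ p - 1 = algebraMap O F π₀ * c := by
      obtain ⟨c', hc', hch'⟩ := h26_pow_sub_one V _ hπVmem ⟨c, hc, hch⟩ p
      refine ⟨v * h ^ p + c', V.add_mem (V.mul_mem hvV (V.pow_mem hhV p)) hc', ?_⟩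
      have e : (g₁ * h) ^ p - 1 = (g - 1) * h ^ p + (h ^ p - 1) := by
        rw [mul_pow, hg₁]
        ring
      rw [e, hgv, hch']
      ring
    obtain ⟨ζ, hζ, c₂, hc₂, hζc⟩ := hunit (g₁ * h) (V.mul_mem hg₁V hhV) ⟨s, hs, hreg⟩ hpow
    -- `ζ` is a unit with inverse `ζ ^ (p - 1)`
    have hζF : algebraMap O F ζ ^ p = 1 := by rw [← map_pow, hζ, map_one]
    have hζinv : algebraMap O F ζ * algebraMap O F ζ ^ (p - 1) = 1 := by
      rw [← pow_succ', Nat.sub_add_cancel hp.pos, hζF]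
    have hζ0 : algebraMap O F ζ ≠ 0 := fun h0 => by
      rw [h0, zero_mul] at hζinv
      exact zero_ne_one hζinv
    refine ⟨g₁ * algebraMap O F ζ ^ (p - 1), ?_, ?_⟩
    · have h1 : g₁ ^ (p ^ (n + 1)) = w := by
        rw [pow_succ, mul_comm, pow_mul, hg₁, hgw]
      have h2 : (algebraMap O F ζ ^ (p - 1)) ^ (p ^ (n + 1)) = 1 := by
        rw [← pow_mul, pow_succ, mul_comm (p ^ n) p, ← mul_assoc, mul_comm (p - 1) p, mul_assoc,
          pow_mul, hζF, one_pow]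
      rw [mul_pow, h1, h2, mul_one]
    · -- `g₁ ζ⁻¹ - 1 = ζ⁻¹ (g₁ - ζ)` and `g₁ - ζ = (g₁ h - ζ) - g₁ (h - 1)`
      refine ⟨algebraMap O F ζ ^ (p - 1) * (c₂ - g₁ * c),
        V.mul_mem (V.pow_mem (hOV ζ) _) (V.sub_mem hc₂ (V.mul_mem hg₁V hc)), ?_⟩
      have e : g₁ * algebraMap O F ζ ^ (p - 1) - 1 =
          algebraMap O F ζ ^ (p - 1) * ((g₁ * h - algebraMap O F ζ) - g₁ * (h - 1)) := by
        have : algebraMap O F ζ ^ (p - 1) * algebraMap O F ζ = 1 := by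
          rw [mul_comm]; exact hζinv
        linear_combination this
      rw [e, hζc, hch]
      ring

end Fermat.Agent.S34x.Loc.H26
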