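import Mathlib
import Fermat.Agent.S34x.Loc.H26_NodalLoc

/-!
# S34 (W10), package (LOC): `InLoc` from the primes of the generic fibre (helper26)

`B ≤ A` subrings of a field `F` with `A = B[1/π]` (element form), `𝔫` a prime ideal of `B`.

* `h26_inLoc_of_primes` : if for every prime ideal `𝔓` of `A` with `𝔓 ∩ B ⊆ 𝔫` (a point of the
  generic fibre specialising to `𝔫`) the element `w : F` is regular at `𝔓`
  (`∃ a ∈ A \ 𝔓, a * w ∈ A`), then `w ∈ B_𝔫[1/π]` in the element form `InLoc B π 𝔫 w`.

No Dedekind hypothesis is needed (prime avoidance for the ideal of denominators).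
-/

set_option autoImplicit false

namespace Fermat.Agent.S34x.Loc.H26

variable {F : Type*} [Field F]

/-- **`InLoc` from the primes of the generic fibre through `𝔫`.** -/
theorem h26_inLoc_of_primes (B A : Subring F) (hBA : B ≤ A) (π : F)
    (hA : ∀ a ∈ A, ∃ k : ℕ, π ^ k * a ∈ B)
    (𝔫 : Ideal B) [𝔫.IsPrime] (w : F)
    (hreg : ∀ 𝔓 : Ideal A, 𝔓.IsPrime → (∀ s : B, (⟨(s : F), hBA s.2⟩ : A) ∈ 𝔓 → s ∈ 𝔫) →
      ∃ a : A, a ∉ 𝔓 ∧ (a : F) * w ∈ A) :
    InLoc B π 𝔫 w := by
  classical
  -- the ideal of denominators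
  let I : Ideal A :=
    { carrier := {a : A | (a : F) * w ∈ A}
      add_mem' := by
        intro a b ha hb
        have e : ((a + b : A) : F) * w = (a : F) * w + (b : F) * w := by
          push_cast
          ring
        show ((a + b : A) : F) * w ∈ A
        rw [e]
        exact A.add_mem ha hb
      zero_mem' := by
        show ((0 : A) : F) * w ∈ A
        simp
      smul_mem' := by
        intro c a ha
        have e : ((c • a : A) : F) * w = (c : F) * ((a : F) * w) := by
          rw [smul_eq_mul]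
          push_cast
          ring
        show ((c • a : A) : F) * w ∈ A
        rw [e]
        exact A.mul_mem c.2 ha }
  -- the multiplicative set `B \ 𝔫` inside `A`
  let S : Submonoid A :=
    { carrier := {a : A | ∃ s : B, s ∉ 𝔫 ∧ (s : F) = (a : F)}
      mul_mem' := by
        rintro a b ⟨s, hs, hsa⟩ ⟨t, ht, htb⟩
        refine ⟨s * t, fun h => ?_, ?_⟩
        · rcases Ideal.IsPrime.mem_or_mem inferInstance h with h | h
          · exact hs h
          · exact ht h
        · push_cast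
          rw [hsa, htb]
      one_mem' := ⟨1, fun h => (Ideal.IsPrime.ne_top inferInstance)
        ((Ideal.eq_top_iff_one 𝔫).mpr h), by simp⟩ }
  by_cases hdis : Disjoint (I : Set A) (S : Set A)
  · exfalso
    obtain ⟨𝔓, h𝔓, hI𝔓, h𝔓S⟩ := Ideal.exists_le_prime_disjoint I S hdis
    have hspec : ∀ s : B, (⟨(s : F), hBA s.2⟩ : A) ∈ 𝔓 → s ∈ 𝔫 := by
      intro s hs
      by_contra hsn
      exact (Set.disjoint_left.mp h𝔓S) hs ⟨s, hsn, rfl⟩
    obtain ⟨a, ha𝔓, haw⟩ := hreg 𝔓 h𝔓 hspec
    exact ha𝔓 (hI𝔓 haw)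
  · rw [Set.not_disjoint_iff] at hdis
    obtain ⟨a, haI, s, hs, hsa⟩ := hdis
    have hsw : (s : F) * w ∈ A := by
      rw [hsa]
      exact haI
    obtain ⟨k, hk⟩ := hA _ hsw
    refine ⟨s, hs, k, ?_⟩
    have e : (s : F) * π ^ k * w = π ^ k * ((s : F) * w) := by ring
    rw [e]
    exact hk

end Fermat.Agent.S34x.Loc.H26
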