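import Mathlib
import Fermat.Agent.S18x.Dict.H7_LocPlace

/-!
# S34 (wave 10), stages (D) + (F3) at a closed point lying on ONE component (helper17)

`B ⊆ F` a noetherian chart, `𝔫` a maximal ideal of `B` containing `π`, of type (ONE):
`𝔫 B_𝔫 = (π, t)` (`hSM`, the shape of `HSMChart` at `𝔫`) and `π` is prime in `B_𝔫` (`hπp`,
element form).  If `m ∣ ord_P f` for every place `P` of `F / K` then

  `f = d ^ m * w₀`  with  `w₀, w₀⁻¹ ∈ B_𝔫[1/π]`

(the two last conjuncts are `InLoc B π 𝔫 w₀`, `InLoc B π 𝔫 w₀⁻¹` of `S34x.Loc.H26` unfolded):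
this is `hLP₁` / `hLP₂` of `h26_ss_abs` at `𝔫`.  No rational points and no dictionary between
primes and places are needed: `B_𝔫` is a UFD (`S18x.Dict.H7.h7_ufm`) and the `g`-adic orders
are multiples of place orders (`h7_dvd_of_place`).

* `h17_LP_one_abs` : the statement for an abstract localisation `R` of `B` at `𝔫`;
* `h17_LP_one` : the statement for a subring `B` of `F`;
* `h17_pi_prime_one` : `hπp` from (SAT) for `V ⊓ V₀`, where `V ⊇ B_𝔫` is the valuation ring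
  of the component through `𝔫` and `V₀` that of the other component.
-/

set_option autoImplicit false
set_option linter.unusedSectionVars false
set_option linter.style.haveILetI false

namespace Fermat.Agent.S34x.Loc.H17

open AlgebraicCurve IsLocalRing Fermat.Agent.S18x.Dict.H7

section Abs

variable {K F B R : Type*} [Field K] [Field F] [Algebra K F]
  [CommRing B] [IsDomain B] [Algebra B F]
  [CommRing R] [IsDomain R] [IsLocalRing R] [IsNoetherianRing R] [Algebra B R] [Algebra R F]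
  [IsScalarTower B R F] [IsFractionRing R F]

/-- **(LP) at a one-component point**, abstract localisation. -/
theorem h17_LP_one_abs (𝔫 : Ideal B) [h𝔫 : 𝔫.IsPrime] [IsLocalization.AtPrime R 𝔫]
    (π t : B) (hπ0 : π ≠ 0)
    (hπR : (Ideal.span {algebraMap B R π} : Ideal R).IsPrime)
    (hK : ∀ c : K, ∃ (n : ℕ) (b : B),
      algebraMap B F π ^ n * algebraMap K F c = algebraMap B F b)
    (m : ℕ) (hm : 0 < m) (f : F) (hf0 : f ≠ 0)
    (hdiv : ∀ P : Place K F, (m : ℤ) ∣ P.ord f)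
    (hπ𝔫 : π ∈ 𝔫) (ht𝔫 : t ∈ 𝔫)
    (hSM : ∀ x ∈ 𝔫, ∃ s : B, s ∉ 𝔫 ∧ ∃ u v : B, s * x = π * u + t * v) :
    ∃ d w₀ : F, d ≠ 0 ∧ w₀ ≠ 0 ∧ f = d ^ m * w₀ ∧
      (∃ (s : B) (k : ℕ) (y : B), s ∉ 𝔫 ∧
        algebraMap B F s * algebraMap B F π ^ k * w₀ = algebraMap B F y) ∧
      (∃ (s : B) (k : ℕ) (y : B), s ∉ 𝔫 ∧
        algebraMap B F s * algebraMap B F π ^ k * w₀⁻¹ = algebraMap B F y) := by
  classical
  have hφι : ∀ b : B, algebraMap R F (algebraMap B R b) = algebraMap B F b :=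
    fun b => (IsScalarTower.algebraMap_apply B R F b).symm
  have hφinj : Function.Injective (algebraMap R F) := IsFractionRing.injective R F
  have hle : 𝔫.primeCompl ≤ nonZeroDivisors B := Ideal.primeCompl_le_nonZeroDivisors 𝔫
  have hιinj : Function.Injective (algebraMap B R) := IsLocalization.injective R hle
  have hunit : ∀ s : B, s ∉ 𝔫 → IsUnit (algebraMap B R s) :=
    fun s hs => IsLocalization.map_units R (⟨s, hs⟩ : 𝔫.primeCompl)
  -- 1. the maximal ideal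
  have hmax : maximalIdeal R = Ideal.span {algebraMap B R π, algebraMap B R t} := by
    apply le_antisymm
    · intro x hx
      obtain ⟨b, s, rfl⟩ := IsLocalization.exists_mk'_eq 𝔫.primeCompl x
      have hb : b ∈ 𝔫 := (IsLocalization.AtPrime.mk'_mem_maximal_iff R 𝔫 b s).mp hx
      obtain ⟨s', hs', u, v, huv⟩ := hSM b hb
      have h1 : algebraMap B R (s' * s) * IsLocalization.mk' R b s =
          algebraMap B R π * algebraMap B R u + algebraMap B R t * algebraMap B R v := by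
        rw [map_mul, mul_assoc, mul_comm (algebraMap B R (s : B)), IsLocalization.mk'_spec,
          ← map_mul, huv, map_add, map_mul, map_mul]
      have h2 : algebraMap B R (s' * s) * IsLocalization.mk' R b s ∈
          Ideal.span {algebraMap B R π, algebraMap B R t} := by
        rw [h1, Ideal.mem_span_pair]
        exact ⟨algebraMap B R u, algebraMap B R v, by ring⟩
      have h3 : IsUnit (algebraMap B R (s' * s)) := by
        rw [map_mul]
        exact (hunit s' hs').mul (hunit s s.2)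
      exact (Ideal.unit_mul_mem_iff_mem _ h3).mp h2
    · rw [Ideal.span_le]
      rintro x (rfl | rfl)
      · exact (IsLocalization.AtPrime.to_map_mem_maximal_iff R 𝔫 π).mpr hπ𝔫
      · exact (IsLocalization.AtPrime.to_map_mem_maximal_iff R 𝔫 t).mpr ht𝔫
  have hπR0 : algebraMap B R π ≠ 0 := by
    rw [Ne, map_eq_zero_iff _ hιinj]
    exact hπ0
  -- 2. `R` is a UFD
  have hufm : UniqueFactorizationMonoid R := h7_ufm _ _ hmax hπR hπR0
  have hpR : Prime (algebraMap B R π) := h7_prime_pi _ hπR hπR0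
  -- 3. `f = a / b`
  obtain ⟨a, b, ha0, hb0, hfab⟩ := h7_exists_rep (R := R) f hf0
  have hdivR : ∀ g : R, Prime g → ¬ algebraMap B R π ∣ g →
      (m : ℤ) ∣ (multiplicity g a : ℤ) - (multiplicity g b : ℤ) := by
    intro g hg hπg
    have hgπ : ¬ g ∣ algebraMap B R π := by
      intro h
      exact hπg (hg.associated_of_dvd hpR h).symm.dvd
    refine h7_dvd_of_place (K := K) (F := F) g hg ?_ m f hdiv _ _ ha0 hb0 hfab
    intro c
    obtain ⟨n, b', hb'⟩ := hK c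
    refine ⟨algebraMap B R b', algebraMap B R π ^ n, fun h => hgπ (hg.dvd_of_dvd_pow h), ?_⟩
    rw [map_pow, hφι, hφι, ← hb']
    ring
  -- 4. `x = a * b ^ (m - 1) = π ^ k * x'`, `π ∤ x'`
  obtain ⟨m', rfl⟩ : ∃ m', m = m' + 1 := ⟨m - 1, by omega⟩
  have hx0 : a * b ^ m' ≠ 0 := mul_ne_zero ha0 (pow_ne_zero _ hb0)
  obtain ⟨k, x', hx', hx'π⟩ := h7_exists_pow_mul' (algebraMap B R π) hpR (a * b ^ m') hx0
  have hx'0 : x' ≠ 0 := by
    rintro rfl
    exact hx'π (Ideal.zero_mem _)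
  have hπx' : ¬ algebraMap B R π ∣ x' := by
    rwa [Ideal.mem_span_singleton] at hx'π
  have hmultx : ∀ g : R, Prime g →
      multiplicity g (a * b ^ m') = multiplicity g a + m' * multiplicity g b := by
    intro g hg
    rw [h7_mult_mul g hg a (b ^ m') ha0 (pow_ne_zero _ hb0),
      (FiniteMultiplicity.of_prime_left hg hb0).multiplicity_pow hg]
  have hdiv' : ∀ g : R, Prime g → (m' + 1) ∣ multiplicity g x' := by
    intro g hg
    by_cases hπg : algebraMap B R π ∣ g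
    · have h0 : multiplicity g x' = 0 := by
        rw [multiplicity_eq_zero]
        intro h
        exact hπx' (hπg.trans h)
      rw [h0]
      exact dvd_zero _
    · have hgπ : ¬ g ∣ algebraMap B R π := by
        intro h
        exact hπg (hg.associated_of_dvd hpR h).symm.dvd
      have h1 : multiplicity g (algebraMap B R π ^ k) = 0 := by
        rw [multiplicity_eq_zero]
        intro h
        exact hgπ (hg.dvd_of_dvd_pow h)
      have h2 : multiplicity g (a * b ^ m') = multiplicity g x' := by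
        rw [hx', h7_mult_mul g hg _ _ (pow_ne_zero _ hπR0) hx'0, h1, zero_add]
      have h3 := hdivR g hg hπg
      have h4 := hmultx g hg
      rw [h2] at h4
      have h5 : ((m' + 1 : ℕ) : ℤ) ∣ (multiplicity g x' : ℤ) := by
        have e : (multiplicity g x' : ℤ) =
            ((multiplicity g a : ℤ) - multiplicity g b) +
              ((m' + 1 : ℕ) : ℤ) * multiplicity g b := by
          rw [h4]
          push_cast
          ring
        rw [e]
        exact dvd_add h3 (dvd_mul_right _ _)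
      exact Int.natCast_dvd_natCast.mp h5
  -- 5. `x' = u * x₀ ^ m`
  obtain ⟨u, x₀, hux⟩ := h7_pow_of_multiplicity (m' + 1) x' hx'0 hdiv'
  have hx₀0 : x₀ ≠ 0 := by
    rintro rfl
    rw [zero_pow (Nat.succ_ne_zero m'), mul_zero] at hux
    exact hx'0 hux
  have hbF0 : algebraMap R F b ≠ 0 := by
    rw [Ne, map_eq_zero_iff _ hφinj]
    exact hb0
  have hx₀F0 : algebraMap R F x₀ ≠ 0 := by
    rw [Ne, map_eq_zero_iff _ hφinj]
    exact hx₀0
  have huF0 : algebraMap R F (u : R) ≠ 0 := by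
    rw [Ne, map_eq_zero_iff _ hφinj]
    exact u.ne_zero
  have hπF0 : algebraMap B F π ≠ 0 := by
    rw [← hφι, Ne, map_eq_zero_iff _ hφinj]
    exact hπR0
  -- the key identity in `F`
  have hkey : f * algebraMap R F b ^ (m' + 1) =
      algebraMap B F π ^ k * algebraMap R F (u : R) * algebraMap R F x₀ ^ (m' + 1) := by
    have h1 : algebraMap R F (a * b ^ m') =
        algebraMap R F (algebraMap B R π ^ k * ((u : R) * x₀ ^ (m' + 1))) := by
      rw [hx', hux]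
    rw [map_mul, map_pow, map_mul, map_pow, hφι, map_mul, map_pow] at h1
    rw [pow_succ, ← mul_assoc, mul_comm f, mul_assoc, hfab, mul_comm, h1]
    ring
  obtain ⟨y, s, hys⟩ := IsLocalization.exists_mk'_eq 𝔫.primeCompl (u : R)
  obtain ⟨y', s', hys'⟩ := IsLocalization.exists_mk'_eq 𝔫.primeCompl ((u⁻¹ : Rˣ) : R)
  have h2 : algebraMap B F (s : B) * algebraMap R F (u : R) = algebraMap B F y := by
    rw [← hφι, ← hφι, ← map_mul, ← hys, mul_comm, IsLocalization.mk'_spec]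
  have h2' : algebraMap B F (s' : B) * algebraMap R F ((u⁻¹ : Rˣ) : R) = algebraMap B F y' := by
    rw [← hφι, ← hφι, ← map_mul, ← hys', mul_comm, IsLocalization.mk'_spec]
  have huu : algebraMap R F (u : R) * algebraMap R F ((u⁻¹ : Rˣ) : R) = 1 := by
    rw [← map_mul, Units.mul_inv, map_one]
  refine ⟨algebraMap R F x₀ * (algebraMap R F b)⁻¹,
    algebraMap B F π ^ k * algebraMap R F (u : R),
    mul_ne_zero hx₀F0 (inv_ne_zero hbF0), mul_ne_zero (pow_ne_zero _ hπF0) huF0, ?_,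
    ⟨s, 0, π ^ k * y, s.2, ?_⟩, ⟨s', k, y', s'.2, ?_⟩⟩
  · rw [mul_pow, inv_pow]
    have hbm : algebraMap R F b ^ (m' + 1) ≠ 0 := pow_ne_zero _ hbF0
    rw [eq_comm, mul_assoc, mul_comm _ (algebraMap B F π ^ k * _), ← mul_assoc,
      ← eq_div_iff (inv_ne_zero hbm), div_eq_mul_inv, inv_inv, eq_comm]
    rw [hkey]
    ring
  · rw [pow_zero, mul_one, map_mul, map_pow, ← h2]
    ring
  · rw [mul_inv, ← h2']
    have h3 : (algebraMap R F (u : R))⁻¹ = algebraMap R F ((u⁻¹ : Rˣ) : R) :=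
      inv_eq_of_mul_eq_one_right huu
    rw [h3]
    have h4 : algebraMap B F π ^ k * (algebraMap B F π ^ k)⁻¹ = 1 :=
      mul_inv_cancel₀ (pow_ne_zero _ hπF0)
    linear_combination (algebraMap B F (s' : B) * algebraMap R F ((u⁻¹ : Rˣ) : R)) * h4

end Abs

section Final

variable {K F : Type*} [Field K] [Field F] [Algebra K F]

/-- `π` is prime in a localisation `R` of `B` at `𝔫` as soon as it is prime in element form. -/
theorem h17_prime_of_elem {B R : Type*} [CommRing B] [IsDomain B] [CommRing R] [IsDomain R]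
    [Algebra B R] (𝔫 : Ideal B) [h𝔫 : 𝔫.IsPrime] [IsLocalization.AtPrime R 𝔫]
    (π : B) (hπ0 : π ≠ 0) (hπ𝔫 : π ∈ 𝔫)
    (hπp : ∀ a b : B, (∃ s : B, s ∉ 𝔫 ∧ ∃ c : B, s * (a * b) = π * c) →
      (∃ s : B, s ∉ 𝔫 ∧ ∃ c : B, s * a = π * c) ∨ (∃ s : B, s ∉ 𝔫 ∧ ∃ c : B, s * b = π * c)) :
    (Ideal.span {algebraMap B R π} : Ideal R).IsPrime := by
  classical
  have hle : 𝔫.primeCompl ≤ nonZeroDivisors B := Ideal.primeCompl_le_nonZeroDivisors 𝔫
  have hιinj : Function.Injective (algebraMap B R) := IsLocalization.injective R hle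
  have hunit : ∀ s : B, s ∉ 𝔫 → IsUnit (algebraMap B R s) :=
    fun s hs => IsLocalization.map_units R (⟨s, hs⟩ : 𝔫.primeCompl)
  have hπR0 : algebraMap B R π ≠ 0 := by
    rw [Ne, map_eq_zero_iff _ hιinj]
    exact hπ0
  have key : ∀ (a : B) (s : 𝔫.primeCompl),
      algebraMap B R π ∣ IsLocalization.mk' R a s ↔
        ∃ s₁ : B, s₁ ∉ 𝔫 ∧ ∃ c : B, s₁ * a = π * c := by
    intro a s
    constructor
    · rintro ⟨z, hz⟩
      obtain ⟨c, s'', rfl⟩ := IsLocalization.exists_mk'_eq 𝔫.primeCompl z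
      refine ⟨s'', s''.2, s * c, ?_⟩
      apply hιinj
      have h1 : IsLocalization.mk' R a s * algebraMap B R (s : B) = algebraMap B R a :=
        IsLocalization.mk'_spec R a s
      have h2 : IsLocalization.mk' R c s'' * algebraMap B R (s'' : B) = algebraMap B R c :=
        IsLocalization.mk'_spec R c s''
      rw [map_mul, map_mul, map_mul, ← h1, ← h2, hz]
      ring
    · rintro ⟨s₁, hs₁, c, hc⟩
      have h1 : IsLocalization.mk' R a s * algebraMap B R (s : B) = algebraMap B R a :=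
        IsLocalization.mk'_spec R a s
      have h2 : algebraMap B R π ∣
          (algebraMap B R s₁ * algebraMap B R (s : B)) * IsLocalization.mk' R a s := by
        refine ⟨algebraMap B R c, ?_⟩
        rw [mul_assoc, mul_comm (algebraMap B R (s : B)), h1, ← map_mul, hc, map_mul]
      exact (IsUnit.dvd_mul_left ((hunit s₁ hs₁).mul (hunit s s.2))).mp h2
  rw [Ideal.span_singleton_prime hπR0]
  refine ⟨hπR0, ?_, ?_⟩
  · intro hu
    haveI : IsLocalRing R := IsLocalization.AtPrime.isLocalRing R 𝔫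
    have h1 : algebraMap B R π ∈ IsLocalRing.maximalIdeal R :=
      (IsLocalization.AtPrime.to_map_mem_maximal_iff R 𝔫 π).mpr hπ𝔫
    exact (IsLocalRing.mem_maximalIdeal _).mp h1 hu
  · intro x y hxy
    obtain ⟨a, s, rfl⟩ := IsLocalization.exists_mk'_eq 𝔫.primeCompl x
    obtain ⟨b, s', rfl⟩ := IsLocalization.exists_mk'_eq 𝔫.primeCompl y
    rw [← IsLocalization.mk'_mul] at hxy
    obtain ⟨s₁, hs₁, c, hc⟩ := (key _ _).mp hxy
    rcases hπp a b ⟨s₁, hs₁, c, hc⟩ with h | h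
    · exact Or.inl ((key a s).mpr h)
    · exact Or.inr ((key b s').mpr h)

/-- **(LP) at a one-component point** = `hLP₁` / `hLP₂` of `h26_ss_abs` at `𝔫` (the two last
conjuncts are `InLoc B π 𝔫 w₀` and `InLoc B π 𝔫 w₀⁻¹` unfolded), from `(SM)` at `𝔫`, the
primality of `π` in `B_𝔫` and the divisibility of the divisor of `f` over `K`. -/
theorem h17_LP_one (B : Subring F) [IsNoetherianRing B] (π : F) (hπB : π ∈ B) (hπ0 : π ≠ 0)
    (hK : ∀ c : K, ∃ n : ℕ, π ^ n * algebraMap K F c ∈ B)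
    (hfrac : ∀ x : F, ∃ a b : B, b ≠ 0 ∧ x * (b : F) = (a : F))
    (m : ℕ) (hm : 0 < m) (f : F) (hf0 : f ≠ 0)
    (hdiv : ∀ P : Place K F, (m : ℤ) ∣ P.ord f)
    (𝔫 : Ideal B) (h𝔫 : 𝔫.IsMaximal) (hπ𝔫 : (⟨π, hπB⟩ : B) ∈ 𝔫)
    (t : B) (ht𝔫 : t ∈ 𝔫)
    (hSM : ∀ x ∈ 𝔫, ∃ s : B, s ∉ 𝔫 ∧ ∃ u v : B, s * x = ⟨π, hπB⟩ * u + t * v)
    (hπp : ∀ a b : B, (∃ s : B, s ∉ 𝔫 ∧ ∃ c : B, s * (a * b) = ⟨π, hπB⟩ * c) →
      (∃ s : B, s ∉ 𝔫 ∧ ∃ c : B, s * a = ⟨π, hπB⟩ * c) ∨
        (∃ s : B, s ∉ 𝔫 ∧ ∃ c : B, s * b = ⟨π, hπB⟩ * c)) :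
    ∃ d w₀ : F, d ≠ 0 ∧ w₀ ≠ 0 ∧ f = d ^ m * w₀ ∧
      (∃ s : B, s ∉ 𝔫 ∧ ∃ k : ℕ, (s : F) * π ^ k * w₀ ∈ B) ∧
      (∃ s : B, s ∉ 𝔫 ∧ ∃ k : ℕ, (s : F) * π ^ k * w₀⁻¹ ∈ B) := by
  classical
  haveI : 𝔫.IsPrime := h𝔫.isPrime
  set π' : B := ⟨π, hπB⟩ with hπ'
  have hπ'0 : π' ≠ 0 := by
    intro h
    exact hπ0 (congrArg Subtype.val h)
  -- the localisation
  have hu : ∀ y : 𝔫.primeCompl, IsUnit (algebraMap B F (y : B)) := by
    intro y
    refine IsUnit.mk0 _ ?_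
    intro h0
    have : (y : B) = 0 := Subtype.ext h0
    exact y.2 (this ▸ 𝔫.zero_mem)
  letI : Algebra (Localization.AtPrime 𝔫) F :=
    (IsLocalization.lift (M := 𝔫.primeCompl) (S := Localization.AtPrime 𝔫)
      (g := algebraMap B F) hu).toAlgebra
  haveI : IsScalarTower B (Localization.AtPrime 𝔫) F :=
    IsScalarTower.of_algebraMap_eq (fun x => (IsLocalization.lift_eq hu x).symm)
  haveI : IsFractionRing B F := by
    refine IsFractionRing.of_field B F ?_
    intro z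
    obtain ⟨a, b, hb0, hab⟩ := hfrac z
    refine ⟨a, b, ?_⟩
    have hbF : (b : F) ≠ 0 := fun h => hb0 (Subtype.ext h)
    rw [eq_div_iff (by exact hbF)]
    exact hab
  haveI : IsFractionRing (Localization.AtPrime 𝔫) F :=
    IsFractionRing.isFractionRing_of_isDomain_of_isLocalization 𝔫.primeCompl
      (Localization.AtPrime 𝔫) F
  haveI : IsDomain (Localization.AtPrime 𝔫) :=
    IsLocalization.isDomain_localization (Ideal.primeCompl_le_nonZeroDivisors 𝔫)
  haveI : IsNoetherianRing (Localization.AtPrime 𝔫) :=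
    IsLocalization.isNoetherianRing 𝔫.primeCompl (Localization.AtPrime 𝔫) inferInstance
  have hK' : ∀ c : K, ∃ (n : ℕ) (b : B),
      algebraMap B F π' ^ n * algebraMap K F c = algebraMap B F b := by
    intro c
    obtain ⟨n, hn⟩ := hK c
    exact ⟨n, ⟨_, hn⟩, rfl⟩
  have hπR : (Ideal.span {algebraMap B (Localization.AtPrime 𝔫) π'} :
      Ideal (Localization.AtPrime 𝔫)).IsPrime :=
    h17_prime_of_elem (R := Localization.AtPrime 𝔫) 𝔫 π' hπ'0 hπ𝔫 hπp
  obtain ⟨d, w₀, hd, hw₀, hfd, ⟨s, k, y, hs, hy⟩, ⟨s', k', y', hs', hy'⟩⟩ :=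
    h17_LP_one_abs (K := K) (F := F) (B := B) (R := Localization.AtPrime 𝔫) 𝔫 π' t hπ'0 hπR hK'
      m hm f hf0 hdiv hπ𝔫 ht𝔫 hSM
  refine ⟨d, w₀, hd, hw₀, hfd, ⟨s, hs, k, ?_⟩, ⟨s', hs', k', ?_⟩⟩
  · have : (s : F) * π ^ k * w₀ = (y : F) := hy
    rw [this]
    exact y.2
  · have : (s' : F) * π ^ k' * w₀⁻¹ = (y' : F) := hy'
    rw [this]
    exact y'.2

/-- **`π` is prime in `B_𝔫` at a one-component point**: `V ⊇ B_𝔫` the valuation ring of the
component through `𝔫` (`hVval`, `hV𝔫`), `V₀ ⊇ B` the other one, (SAT) for `V ⊓ V₀`, and some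
`c ∈ B ∖ 𝔫` with `c ∈ π V₀` (`𝔫` does not lie on the component of `V₀`). -/
theorem h17_pi_prime_one (B V V₀ : Subring F) (hBV : B ≤ V) (hBV₀ : B ≤ V₀)
    (π : F) (hπB : π ∈ B) (hπ0 : π ≠ 0)
    (hsat : ∀ v ∈ V ⊓ V₀, π * v ∈ B → v ∈ B)
    (hVval : ∀ y ∈ V, (∃ v ∈ V, y = π * v) ∨ y⁻¹ ∈ V)
    (𝔫 : Ideal B)
    (hV𝔫 : ∀ s : B, s ∉ 𝔫 → (s : F)⁻¹ ∈ V)
    (hc : ∃ c : B, c ∉ 𝔫 ∧ ∃ w ∈ V₀, (c : F) = π * w) :
    ∀ a b : B, (∃ s : B, s ∉ 𝔫 ∧ ∃ c : B, s * (a * b) = ⟨π, hπB⟩ * c) →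
      (∃ s : B, s ∉ 𝔫 ∧ ∃ c : B, s * a = ⟨π, hπB⟩ * c) ∨
        (∃ s : B, s ∉ 𝔫 ∧ ∃ c : B, s * b = ⟨π, hπB⟩ * c) := by
  intro a b ⟨s, hs, c', hc'⟩
  obtain ⟨c, hc𝔫, w, hw, hcw⟩ := hc
  have hs0 : (s : F) ≠ 0 := by
    intro h
    apply hs
    have : s = 0 := Subtype.ext h
    rw [this]
    exact 𝔫.zero_mem
  have hsi : (s : F)⁻¹ ∈ V := hV𝔫 s hs
  have hss : (s : F) * (s : F)⁻¹ = 1 := mul_inv_cancel₀ hs0
  have hF : (s : F) * ((a : F) * (b : F)) = π * (c' : F) := congrArg Subtype.val hc'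
  -- `a b = π * (c' / s)` in `V`
  have hab : (a : F) * (b : F) = π * ((c' : F) * (s : F)⁻¹) := by
    linear_combination (s : F)⁻¹ * hF - (a : F) * (b : F) * hss
  have hcsV : (c' : F) * (s : F)⁻¹ ∈ V := V.mul_mem (hBV c'.2) hsi
  -- the element of `B` obtained from `x ∈ π V`
  have fin : ∀ x : B, (∃ v ∈ V, (x : F) = π * v) → ∃ s : B, s ∉ 𝔫 ∧ ∃ e : B, s * x = ⟨π, hπB⟩ * e := by
    intro x ⟨v, hv, hxv⟩
    have hz : (c : F) * v ∈ V ⊓ V₀ := by
      refine ⟨V.mul_mem (hBV c.2) hv, ?_⟩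
      have : (c : F) * v = w * (x : F) := by
        apply mul_left_cancel₀ hπ0
        rw [hxv, hcw]
        ring
      rw [this]
      exact V₀.mul_mem hw (hBV₀ x.2)
    have hπz : π * ((c : F) * v) ∈ B := by
      have : π * ((c : F) * v) = (c : F) * (x : F) := by rw [hxv]; ring
      rw [this]
      exact B.mul_mem c.2 x.2
    refine ⟨c, hc𝔫, ⟨_, hsat _ hz hπz⟩, Subtype.ext ?_⟩
    show (c : F) * (x : F) = π * ((c : F) * v)
    rw [hxv]
    ring
  by_cases ha0 : (a : F) = 0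
  · exact Or.inl (fin a ⟨0, V.zero_mem, by rw [ha0, mul_zero]⟩)
  rcases hVval (a : F) (hBV a.2) with ha | ha
  · exact Or.inl (fin a ha)
  · refine Or.inr (fin b ⟨(c' : F) * (s : F)⁻¹ * (a : F)⁻¹, V.mul_mem hcsV ha, ?_⟩)
    have haa : (a : F) * (a : F)⁻¹ = 1 := mul_inv_cancel₀ ha0
    linear_combination (a : F)⁻¹ * hab - (b : F) * haa

end Final

end Fermat.Agent.S34x.Loc.H17
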