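import Mathlib
import Fermat.Agent.S18x.Spec.H26_Charts
import Fermat.Agent.S34x.Comp.H7_Export
import Fermat.Agent.S34x.Loc.H17_LPOne
import Fermat.Agent.S34x.Dict.H11_LPBoth
import Fermat.Agent.S34x.Loc.H26_NodalLoc

/-!
# S34 (W10), stage (LP-ALL): `hLP` at EVERY closed point of the special fibre (helper26)

`O` a discrete valuation ring with uniformiser `π`, `K = Frac O`, `F / K` a function field,
`B ⊆ A ⊆ F` subrings with `B` noetherian (the chart `chart O x` of the normal model),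
`A = B[1/π]` Dedekind with fraction field `F` (the chart `chart K x` of the generic fibre).

If every maximal ideal of `B` containing `π` is of type (ONE) or (BOTH) (`H7Comp`, the export
of stage (C), helper7), `m ∣ ord_P f` for every place `P` of `F / K` and the zeros and poles of
`f` are `K`-rational, then at every maximal ideal `𝔫 ∋ π` of `B`

  `f = d ^ m * w₀`  with  `w₀, w₀⁻¹ ∈ B_𝔫[1/π]`,

which is `hLP₁` / `hLP₂` of `h25_ss_step_tau` / `h18_ss_step` (with `m = p ^ n`).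

* (ONE)  : helper17's `h17_LP_one` (no rationality needed);
* (BOTH) : helper11's `h11_LP_both`.

* `h26_LP_all`   : the statement for subrings `B ≤ A` of `F`;
* `h26_LP_chart` : the statement for `B := (chart O x).toSubring`, conclusion VERBATIM `hLP₁`
  of `h18_ss_step`.
-/

set_option autoImplicit false
set_option linter.unusedSectionVars false
set_option linter.style.haveILetI false

namespace Fermat.Agent.S34x.Loc.H26

open AlgebraicCurve Fermat.Agent.S34x.Comp.H7 Fermat.Agent.S18x.Spec.H26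

variable {O K F : Type*} [CommRing O] [IsDomain O] [IsDiscreteValuationRing O]
  [Field K] [Algebra O K] [IsFractionRing O K]
  [Field F] [Algebra K F] [Algebra O F] [IsScalarTower O K F]

/-- Every element of `K = Frac O` is `π ^ (-n)` times an element of `O`. -/
theorem h26_K_clear (π : O) (hπ : Irreducible π) (c : K) :
    ∃ (n : ℕ) (a : O), algebraMap O K π ^ n * c = algebraMap O K a := by
  obtain ⟨a, b, hb, rfl⟩ := IsFractionRing.div_surjective (A := O) c
  have hb0 : b ≠ 0 := nonZeroDivisors.ne_zero hb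
  obtain ⟨n, u, hu⟩ := IsDiscreteValuationRing.eq_unit_mul_pow_irreducible hb0 hπ
  refine ⟨n, ((u⁻¹ : Oˣ) : O) * a, ?_⟩
  have hbK : algebraMap O K b ≠ 0 := by
    rwa [Ne, map_eq_zero_iff _ (IsFractionRing.injective O K)]
  have h1 : algebraMap O K b = algebraMap O K (u : O) * algebraMap O K π ^ n := by
    rw [hu, map_mul, map_pow]
  have h2 : algebraMap O K ((u⁻¹ : Oˣ) : O) * algebraMap O K (u : O) = 1 := by
    rw [← map_mul, Units.inv_mul, map_one]
  rw [map_mul, eq_comm, ← sub_eq_zero]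
  have h3 : (algebraMap O K ((u⁻¹ : Oˣ) : O) * algebraMap O K a -
      algebraMap O K π ^ n * (algebraMap O K a / algebraMap O K b)) * algebraMap O K b = 0 := by
    rw [sub_mul, mul_assoc (algebraMap O K π ^ n), div_mul_cancel₀ _ hbK]
    rw [h1]
    linear_combination (algebraMap O K a * algebraMap O K π ^ n) * h2
  rcases mul_eq_zero.mp h3 with h | h
  · exact h
  · exact absurd h hbK

/-- **(LP) at every closed point of the special fibre.** -/
theorem h26_LP_all
    (B A : Subring F) (hBA : B ≤ A) [IsNoetherianRing B]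
    [IsDedekindDomain A] [IsFractionRing A F] [Algebra K A] [IsScalarTower K A F]
    (π : O) (hπ : Irreducible π)
    (hOB : ∀ c : O, algebraMap O F c ∈ B)
    (hA : ∀ a ∈ A, ∃ k : ℕ, algebraMap O F π ^ k * a ∈ B)
    (hcomp : H7Comp (⟨algebraMap O F π, hOB π⟩ : B))
    (m : ℕ) (hm : 0 < m) (f : F) (hf0 : f ≠ 0)
    (hdiv : ∀ P : Place K F, (m : ℤ) ∣ P.ord f)
    (hrat : ∀ P : Place K F, P.ord f ≠ 0 → Fermat.Agent.S24.RH.ResidueTrivial P) :
    ∀ 𝔫 : Ideal B, 𝔫.IsMaximal → (⟨algebraMap O F π, hOB π⟩ : B) ∈ 𝔫 →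
      ∃ d w₀ : F, d ≠ 0 ∧ w₀ ≠ 0 ∧ f = d ^ m * w₀ ∧
        InLoc B (algebraMap O F π) 𝔫 w₀ ∧ InLoc B (algebraMap O F π) 𝔫 w₀⁻¹ := by
  intro 𝔫 h𝔫 hπ𝔫
  haveI : 𝔫.IsPrime := h𝔫.isPrime
  have hinj : Function.Injective (algebraMap O F) := by
    rw [IsScalarTower.algebraMap_eq O K F]
    exact (algebraMap K F).injective.comp (IsFractionRing.injective O K)
  have hπ0 : algebraMap O F π ≠ 0 := by
    rw [Ne, map_eq_zero_iff _ hinj]
    exact hπ.ne_zero
  rcases hcomp 𝔫 h𝔫 hπ𝔫 with hone | hboth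
  · obtain ⟨t, ht𝔫, hSM, hπp⟩ := hone
    have hK : ∀ c : K, ∃ n : ℕ, algebraMap O F π ^ n * algebraMap K F c ∈ B := by
      intro c
      obtain ⟨n, a, ha⟩ := h26_K_clear (K := K) π hπ c
      refine ⟨n, ?_⟩
      have h1 : algebraMap O F π ^ n * algebraMap K F c = algebraMap O F a := by
        rw [IsScalarTower.algebraMap_apply O K F π, IsScalarTower.algebraMap_apply O K F a,
          ← ha, map_mul, map_pow]
      rw [h1]
      exact hOB a
    have hfrac : ∀ x : F, ∃ a b : B, b ≠ 0 ∧ x * (b : F) = (a : F) := by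
      intro x
      obtain ⟨a, b, hb, hab⟩ := IsFractionRing.div_surjective (A := A) x
      have hb0 : b ≠ 0 := nonZeroDivisors.ne_zero hb
      have hbF : (b : F) ≠ 0 := fun h => hb0 (Subtype.ext h)
      obtain ⟨k₁, hk₁⟩ := hA (a : F) a.2
      obtain ⟨k₂, hk₂⟩ := hA (b : F) b.2
      have hπB : algebraMap O F π ∈ B := hOB π
      have ha' : algebraMap O F π ^ (k₁ + k₂) * (a : F) ∈ B := by
        rw [pow_add, mul_comm (algebraMap O F π ^ k₁), mul_assoc]
        exact B.mul_mem (B.pow_mem hπB k₂) hk₁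
      have hb' : algebraMap O F π ^ (k₁ + k₂) * (b : F) ∈ B := by
        rw [pow_add, mul_assoc]
        exact B.mul_mem (B.pow_mem hπB k₁) hk₂
      refine ⟨⟨_, ha'⟩, ⟨_, hb'⟩, ?_, ?_⟩
      · intro h
        have h1 : algebraMap O F π ^ (k₁ + k₂) * (b : F) = 0 := congrArg Subtype.val h
        rcases mul_eq_zero.mp h1 with h2 | h2
        · exact pow_ne_zero _ hπ0 h2
        · exact hbF h2
      · have hx : x = (a : F) / (b : F) := hab.symm
        show x * (algebraMap O F π ^ (k₁ + k₂) * (b : F)) =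
          algebraMap O F π ^ (k₁ + k₂) * (a : F)
        rw [hx]
        field_simp
    exact Fermat.Agent.S34x.Loc.H17.h17_LP_one (K := K) B (algebraMap O F π) (hOB π) hπ0 hK
      hfrac m hm f hf0 hdiv 𝔫 h𝔫 hπ𝔫 t ht𝔫 hSM hπp
  · obtain ⟨q1, q2, x, y, hq1, hq2, hq1n, hq2n, hπq1, hπq2, hxn, hyn, hgen, hxy, hyq1, hxq1,
      hgen1, hxq2, hyq2, hgen2⟩ := hboth
    haveI := hq1
    haveI := hq2
    exact Fermat.Agent.S34x.Dict.H11.h11_LP_both (K := K) B A hBA π hπ hOB hA m f hf0 hdiv hrat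
      𝔫 x y hxn hyn hπ𝔫 hgen hxy q1 q2 hq1n hq2n hyq1 hπq1 hxq1 hgen1 hxq2 hπq2 hyq2 hgen2

/-- **(LP) at every closed point of the special fibre of a chart**: conclusion VERBATIM `hLP₁`
of `h18_ss_step` / `h25_ss_step_tau` (take `m := p ^ n`). -/
theorem h26_LP_chart (x : F)
    (A : Subring F) (hBA : (chart O x).toSubring ≤ A) [IsNoetherianRing (chart O x).toSubring]
    [IsDedekindDomain A] [IsFractionRing A F] [Algebra K A] [IsScalarTower K A F]
    (π₀ : O) (hπ : Irreducible π₀)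
    (hA : ∀ a ∈ A, ∃ k : ℕ, algebraMap O F π₀ ^ k * a ∈ (chart O x).toSubring)
    (hcomp : H7Comp (⟨algebraMap O F π₀, (chart O x).algebraMap_mem π₀⟩ :
      (chart O x).toSubring))
    (m : ℕ) (hm : 0 < m) (f : F) (hf0 : f ≠ 0)
    (hdiv : ∀ P : Place K F, (m : ℤ) ∣ P.ord f)
    (hrat : ∀ P : Place K F, P.ord f ≠ 0 → Fermat.Agent.S24.RH.ResidueTrivial P) :
    ∀ 𝔫 : Ideal (chart O x).toSubring, 𝔫.IsMaximal →
      (⟨algebraMap O F π₀, (chart O x).algebraMap_mem π₀⟩ : (chart O x).toSubring) ∈ 𝔫 →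
      ∃ d w₀ : F, d ≠ 0 ∧ w₀ ≠ 0 ∧ f = d ^ m * w₀ ∧
        InLoc (chart O x).toSubring (algebraMap O F π₀) 𝔫 w₀ ∧
        InLoc (chart O x).toSubring (algebraMap O F π₀) 𝔫 w₀⁻¹ :=
  h26_LP_all (K := K) (chart O x).toSubring A hBA π₀ hπ (chart O x).algebraMap_mem hA hcomp
    m hm f hf0 hdiv hrat

end Fermat.Agent.S34x.Loc.H26
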