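import Mathlib
import Fermat.Agent.S34x.Loc.H26_LPAll
import Fermat.Agent.S34x.Dict.H16_Inst

/-!
# S34 (W10), stage (LP), instance-free form (helper26)

`O` a discrete valuation ring with uniformiser `π₀`, `K = Frac O`, `F / K` a function field of
characteristic `0`, `j ∈ F` a coordinate (transcendental over `O`, `F` finite over `K(j)`),
`j' = j⁻¹`.  With helper16's instance layer (`S34x/Dict/H16_Inst`) for
`B := (chart O j).toSubring`, `A := (chart K j).toSubring`, NO instance hypothesis is left: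

* `h26_LP_first`  : `H7Comp` on `chart O j`  ⟹ `hLP₁` of `h18_ss_step` VERBATIM (`m := p ^ n`);
* `h26_LP_second` : `H7Comp` on `chart O j'` ⟹ `hLP₂` of `h18_ss_step` VERBATIM; its inputs
  `hj`, `hfin` are those of `j` (as in `h18_ss_step`).

The remaining inputs are `hcomp` (the export of stage (C)) and `hdiv`, `hrat` (handed over by
the descent, `Desc.H12.H12StepPack`).
-/

set_option autoImplicit false
set_option linter.unusedSectionVars false
set_option linter.style.haveILetI false

namespace Fermat.Agent.S34x.Loc.H26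

open AlgebraicCurve Fermat.Agent.S34x.Comp.H7 Fermat.Agent.S18x.Spec.H26
open Fermat.Agent.S34x.Dict.H16

variable {O K F : Type*} [CommRing O] [IsDomain O] [IsDiscreteValuationRing O]
  [Field K] [Algebra O K] [IsFractionRing O K]
  [Field F] [CharZero F] [Algebra K F] [Algebra O F] [IsScalarTower O K F]

/-- **(LP) on the first chart** = `hLP₁` of `h18_ss_step` (with `m := p ^ n`). -/
theorem h26_LP_first (π₀ : O) (hπ : Irreducible π₀) {j : F} (hj : Transcendental O j)
    (hfin : H26FinOver O j)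
    (hcomp : H7Comp (⟨algebraMap O F π₀, (chart O j).algebraMap_mem π₀⟩ :
      (chart O j).toSubring))
    (m : ℕ) (hm : 0 < m) (f : F) (hf0 : f ≠ 0)
    (hdiv : ∀ P : Place K F, (m : ℤ) ∣ P.ord f)
    (hrat : ∀ P : Place K F, P.ord f ≠ 0 → Fermat.Agent.S24.RH.ResidueTrivial P) :
    ∀ 𝔫 : Ideal (chart O j).toSubring, 𝔫.IsMaximal →
      (⟨algebraMap O F π₀, (chart O j).algebraMap_mem π₀⟩ : (chart O j).toSubring) ∈ 𝔫 →
      ∃ d w₀ : F, d ≠ 0 ∧ w₀ ≠ 0 ∧ f = d ^ m * w₀ ∧
        InLoc (chart O j).toSubring (algebraMap O F π₀) 𝔫 w₀ ∧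
        InLoc (chart O j).toSubring (algebraMap O F π₀) 𝔫 w₀⁻¹ := by
  letI : Algebra K (chart K j).toSubring := h16AlgK K j
  haveI : IsScalarTower K (chart K j).toSubring F := h16_tower K j
  haveI : IsNoetherianRing (chart O j).toSubring := h16_isNoetherian hj hfin
  haveI : IsDedekindDomain (chart K j).toSubring :=
    h16_isDedekind K (h16_transcendental_K hj) (h16_finOver_K hfin)
  haveI : IsFractionRing (chart K j).toSubring F :=
    h16_isFractionRing K (h16_transcendental_K hj) (h16_finOver_K hfin)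
  exact h26_LP_chart (K := K) j (chart K j).toSubring (h16_chart_le j) π₀ hπ
    (h16_chart_scale π₀ hπ j) hcomp m hm f hf0 hdiv hrat

/-- **(LP) on the second chart** = `hLP₂` of `h18_ss_step` (with `m := p ^ n`); the inputs
`hj`, `hfin` are those of the first coordinate. -/
theorem h26_LP_second (π₀ : O) (hπ : Irreducible π₀) {j j' : F} (hjj' : j * j' = 1)
    (hj : Transcendental O j) (hfin : H26FinOver O j)
    (hcomp : H7Comp (⟨algebraMap O F π₀, (chart O j').algebraMap_mem π₀⟩ :
      (chart O j').toSubring))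
    (m : ℕ) (hm : 0 < m) (f : F) (hf0 : f ≠ 0)
    (hdiv : ∀ P : Place K F, (m : ℤ) ∣ P.ord f)
    (hrat : ∀ P : Place K F, P.ord f ≠ 0 → Fermat.Agent.S24.RH.ResidueTrivial P) :
    ∀ 𝔫 : Ideal (chart O j').toSubring, 𝔫.IsMaximal →
      (⟨algebraMap O F π₀, (chart O j').algebraMap_mem π₀⟩ : (chart O j').toSubring) ∈ 𝔫 →
      ∃ d w₀ : F, d ≠ 0 ∧ w₀ ≠ 0 ∧ f = d ^ m * w₀ ∧
        InLoc (chart O j').toSubring (algebraMap O F π₀) 𝔫 w₀ ∧
        InLoc (chart O j').toSubring (algebraMap O F π₀) 𝔫 w₀⁻¹ :=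
  h26_LP_first (K := K) π₀ hπ (h26_transcendental_inv O hjj' hj) (h26_finOver_inv O hjj' hfin)
    hcomp m hm f hf0 hdiv hrat

end Fermat.Agent.S34x.Loc.H26
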