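import Mathlib
import Fermat.Agent.S34x.Loc.H26_SpecPow

/-!
# S34 (W10): the abstract second-difference theorem at prime powers (helper26)

`h26_ss_pow` : setting of `h26_spec_pow` + a ring automorphism `τ` of `F` (an inertia element)
preserving the two charts, with `τ π₀ = ε π₀` (`ε` a unit of `O`), (TRIV), (U).  If `f ≠ 0`
satisfies (LP) for the exponent `p ^ n` at every closed point `𝔫` of the special fibre of the two
charts (`f = d ^ (p ^ n) * w₀` with `w₀, w₀⁻¹ ∈ B_𝔫[1/π₀]`), then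
`δ² f = τ² f · f / (τ f)²` is a `p ^ n`-th power in `F`.

In the application (`p ^ n D = div f`): `(τ - 1)² [D] = 0` in `J₀(N)[p ^ n]`.
-/

set_option autoImplicit false
set_option linter.style.haveILetI false

open Polynomial

namespace Fermat.Agent.S34x.Loc.H26

open Fermat.Agent.S18x.Spec.H26

variable {O F : Type*} [CommRing O] [IsDomain O] [IsIntegrallyClosed O] [IsNoetherianRing O]
  [Field F] [CharZero F] [Algebra O F]

/-- **The abstract second-difference theorem at prime powers.** -/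
theorem h26_ss_pow (π₀ : O) (hπ₀ : Prime π₀) (j j' : F) (hjj' : j * j' = 1)
    (hj : Transcendental O j) (hfinF : H26FinOver O j)
    (V : Subring F) (hVic : ∀ y : F, IsIntegral V y → y ∈ V)
    (hOV : ∀ c : O, algebraMap O F c ∈ V) (hjV : j ∈ V) (hj'V : j' ∈ V)
    (hπV : ∀ v ∈ V, algebraMap O F π₀ * v ≠ 1)
    (hsat₁ : ∀ v ∈ V, algebraMap O F π₀ * v ∈ chart O j → v ∈ chart O j)
    (hsat₂ : ∀ v ∈ V, algebraMap O F π₀ * v ∈ chart O j' → v ∈ chart O j')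
    (hsat₁₂ : ∀ v ∈ V, algebraMap O F π₀ * v ∈ chart₁₂ O j j' → v ∈ chart₁₂ O j j')
    (p : ℕ) (hp : p.Prime) (μ₀ : O) (hμ : μ₀ * (p : O) = 1)
    (hconstAll : ∀ g : F, (∀ y : F, y ^ p ≠ g) →
      ∀ x : AdjoinRoot (X ^ p - C g : F[X]), IsIntegral O x →
        ∃ c : O, algebraMap O (AdjoinRoot (X ^ p - C g : F[X])) c = x)
    (𝔫₀ : Ideal (chart O j).toSubring) (h𝔫₀ : 𝔫₀.IsMaximal)
    (hπ𝔫₀ : (⟨algebraMap O F π₀, (chart O j).algebraMap_mem π₀⟩ : (chart O j).toSubring) ∈ 𝔫₀)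
    (hunit : ∀ v ∈ V, (∃ s : (chart O j).toSubring, s ∉ 𝔫₀ ∧ (s : F) * v ∈ (chart O j).toSubring) →
      (∃ c ∈ V, v ^ p - 1 = algebraMap O F π₀ * c) →
      ∃ ζ : O, ζ ^ p = 1 ∧ ∃ c ∈ V, v - algebraMap O F ζ = algebraMap O F π₀ * c)
    (τ : F ≃+* F) (hτ₁ : ∀ b ∈ chart O j, τ b ∈ chart O j)
    (hτ₂ : ∀ b ∈ chart O j', τ b ∈ chart O j')
    (ε ε' : O) (hεε' : ε * ε' = 1)
    (hε : τ (algebraMap O F π₀) = algebraMap O F ε * algebraMap O F π₀)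
    (htriv : ∀ v ∈ V, ∃ c ∈ V, τ v - v = algebraMap O F π₀ * c)
    (hU : ∀ g : F, g ≠ 0 → τ g / g ∈ V ∧ g / τ g ∈ V)
    (n : ℕ) (f : F) (hf0 : f ≠ 0)
    (hLP₁ : ∀ 𝔫 : Ideal (chart O j).toSubring, 𝔫.IsMaximal →
      (⟨algebraMap O F π₀, (chart O j).algebraMap_mem π₀⟩ : (chart O j).toSubring) ∈ 𝔫 →
      ∃ d w₀ : F, d ≠ 0 ∧ w₀ ≠ 0 ∧ f = d ^ (p ^ n) * w₀ ∧
        InLoc (chart O j).toSubring (algebraMap O F π₀) 𝔫 w₀ ∧
        InLoc (chart O j).toSubring (algebraMap O F π₀) 𝔫 w₀⁻¹)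
    (hLP₂ : ∀ 𝔫 : Ideal (chart O j').toSubring, 𝔫.IsMaximal →
      (⟨algebraMap O F π₀, (chart O j').algebraMap_mem π₀⟩ : (chart O j').toSubring) ∈ 𝔫 →
      ∃ d w₀ : F, d ≠ 0 ∧ w₀ ≠ 0 ∧ f = d ^ (p ^ n) * w₀ ∧
        InLoc (chart O j').toSubring (algebraMap O F π₀) 𝔫 w₀ ∧
        InLoc (chart O j').toSubring (algebraMap O F π₀) 𝔫 w₀⁻¹) :
    ∃ g : F, g ^ (p ^ n) = secondDiff τ f := by
  have hBV₁ : (chart O j).toSubring ≤ V := by
    intro y hy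
    refine h26_closure_le (O := O) {j} V hVic hOV ?_ hy
    intro s hs
    rw [Set.mem_singleton_iff] at hs
    rw [hs]
    exact hjV
  have hBV₂ : (chart O j').toSubring ≤ V := by
    intro y hy
    refine h26_closure_le (O := O) {j'} V hVic hOV ?_ hy
    intro s hs
    rw [Set.mem_singleton_iff] at hs
    rw [hs]
    exact hj'V
  have hεε'F : algebraMap O F ε * algebraMap O F ε' = 1 := by
    rw [← map_mul, hεε', map_one]
  have hL₁ : ∀ 𝔫 : Ideal (chart O j).toSubring, 𝔫.IsMaximal →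
      (⟨algebraMap O F π₀, (chart O j).algebraMap_mem π₀⟩ : (chart O j).toSubring) ∈ 𝔫 →
      LocAt (chart O j).toSubring V (algebraMap O F π₀) (p ^ n) 𝔫 (secondDiff τ f) := by
    intro 𝔫 h𝔫 hπ𝔫
    obtain ⟨d, w₀, hd, hw₀, hf, hL, hL'⟩ := hLP₁ 𝔫 h𝔫 hπ𝔫
    haveI : 𝔫.IsPrime := h𝔫.isPrime
    exact h26_nodal_loc (chart O j).toSubring V hBV₁ (algebraMap O F π₀)
      ((chart O j).algebraMap_mem π₀) hsat₁ τ hτ₁ (algebraMap O F ε) (algebraMap O F ε')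
      ((chart O j).algebraMap_mem ε) ((chart O j).algebraMap_mem ε') hεε'F hε htriv hU (p ^ n) 𝔫
      hπ𝔫 f d w₀ hd hw₀ hf hL hL'
  have hL₂ : ∀ 𝔫 : Ideal (chart O j').toSubring, 𝔫.IsMaximal →
      (⟨algebraMap O F π₀, (chart O j').algebraMap_mem π₀⟩ : (chart O j').toSubring) ∈ 𝔫 →
      LocAt (chart O j').toSubring V (algebraMap O F π₀) (p ^ n) 𝔫 (secondDiff τ f) := by
    intro 𝔫 h𝔫 hπ𝔫
    obtain ⟨d, w₀, hd, hw₀, hf, hL, hL'⟩ := hLP₂ 𝔫 h𝔫 hπ𝔫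
    haveI : 𝔫.IsPrime := h𝔫.isPrime
    exact h26_nodal_loc (chart O j').toSubring V hBV₂ (algebraMap O F π₀)
      ((chart O j').algebraMap_mem π₀) hsat₂ τ hτ₂ (algebraMap O F ε) (algebraMap O F ε')
      ((chart O j').algebraMap_mem ε) ((chart O j').algebraMap_mem ε') hεε'F hε htriv hU (p ^ n) 𝔫
      hπ𝔫 f d w₀ hd hw₀ hf hL hL'
  obtain ⟨g, hg, -⟩ := h26_spec_pow π₀ hπ₀ j j' hjj' hj hfinF V hVic hOV hjV hj'V hπV hsat₁ hsat₂
    hsat₁₂ p hp μ₀ hμ hconstAll 𝔫₀ h𝔫₀ hπ𝔫₀ hunit n (secondDiff τ f)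
    (h26_secondDiff_sub_one V (algebraMap O F π₀) τ htriv hU hf0) hL₁ hL₂
  exact ⟨g, hg⟩

end Fermat.Agent.S34x.Loc.H26
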