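import Mathlib
import Fermat.Agent.S34x.Loc.H26_NodalLoc

/-!
# S34 (W10), stage (E') / (F3): (LP) at a closed point from finitely many rational points with
local equations (helper26)

`B` a subring of a field `F` (a chart), `π ∈ B`, `𝔫` a prime ideal of `B` containing `π`.
A HORIZONTAL prime through `𝔫` is a prime `𝔮 ≤ 𝔫` of `B` with `π ∉ 𝔮`.

* `UnitAt B 𝔮 x` : `x = a / b` with `a, b ∈ B \ 𝔮` (`x` is a unit of `B_𝔮`);
* `h26_inLoc_of_horizontal` : if `w` is regular at every horizontal prime through `𝔫`, then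
  `InLoc B π 𝔫 w` (`w ∈ B_𝔫[1/π]`); no noetherian / Dedekind hypothesis;
* `h26_lp_of_sections` : **the assembly**.  Given finitely many ring homomorphisms
  `ev i : B → O` (the rational points of the generic fibre through `𝔫` in the support of
  `div f`), pairwise with different kernels, local equations `d i` in the form delivered by
  `Fermat.Agent.S34x.Node.H23.h23_node_lp` (`ev i z = 0 → s π^k z = d i * g`, `s ∉ 𝔫`), orders
  `f = (d i) ^ (m * e i) * (a / b)` with `ev i a ≠ 0`, `ev i b ≠ 0`, and `f` a unit at every other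
  horizontal prime through `𝔫`:  `f = D ^ m * w₀` with `InLoc w₀`, `InLoc w₀⁻¹`, i.e. the
  hypothesis `hLP` of `h26_ss_abs` / `h26_ss_pow` at `𝔫`.
-/

set_option autoImplicit false
set_option linter.style.haveILetI false

namespace Fermat.Agent.S34x.Loc.H26

variable {F : Type*} [Field F]

/-- **`InLoc` from the horizontal primes through `𝔫`.** -/
theorem h26_inLoc_of_horizontal (B : Subring F) (π : F) (hπB : π ∈ B)
    (𝔫 : Ideal B) [𝔫.IsPrime] (w : F)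
    (hreg : ∀ 𝔮 : Ideal B, 𝔮.IsPrime → 𝔮 ≤ 𝔫 → (⟨π, hπB⟩ : B) ∉ 𝔮 →
      ∃ a : B, a ∉ 𝔮 ∧ (a : F) * w ∈ B) :
    InLoc B π 𝔫 w := by
  classical
  let I : Ideal B :=
    { carrier := {a : B | (a : F) * w ∈ B}
      add_mem' := by
        intro a b ha hb
        have e : ((a + b : B) : F) * w = (a : F) * w + (b : F) * w := by
          push_cast
          ring
        show ((a + b : B) : F) * w ∈ B
        rw [e]
        exact B.add_mem ha hb
      zero_mem' := by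
        show ((0 : B) : F) * w ∈ B
        simp
      smul_mem' := by
        intro c a ha
        have e : ((c • a : B) : F) * w = (c : F) * ((a : F) * w) := by
          rw [smul_eq_mul]
          push_cast
          ring
        show ((c • a : B) : F) * w ∈ B
        rw [e]
        exact B.mul_mem c.2 ha }
  let S : Submonoid B :=
    { carrier := {a : B | ∃ s : B, s ∉ 𝔫 ∧ ∃ k : ℕ, a = s * (⟨π, hπB⟩ : B) ^ k}
      mul_mem' := by
        rintro a b ⟨s, hs, k, rfl⟩ ⟨t, ht, l, rfl⟩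
        refine ⟨s * t, fun h => ?_, k + l, by ring⟩
        rcases Ideal.IsPrime.mem_or_mem inferInstance h with h | h
        · exact hs h
        · exact ht h
      one_mem' := ⟨1, fun h => (Ideal.IsPrime.ne_top inferInstance)
        ((Ideal.eq_top_iff_one 𝔫).mpr h), 0, by simp⟩ }
  by_cases hdis : Disjoint (I : Set B) (S : Set B)
  · exfalso
    obtain ⟨𝔮, h𝔮, hI𝔮, h𝔮S⟩ := Ideal.exists_le_prime_disjoint I S hdis
    have h1 : 𝔮 ≤ 𝔫 := by
      intro b hb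
      by_contra hbn
      exact (Set.disjoint_left.mp h𝔮S) hb ⟨b, hbn, 0, by simp⟩
    have h2 : (⟨π, hπB⟩ : B) ∉ 𝔮 := by
      intro hπ
      exact (Set.disjoint_left.mp h𝔮S) hπ ⟨1, fun h => (Ideal.IsPrime.ne_top inferInstance)
        ((Ideal.eq_top_iff_one 𝔫).mpr h), 1, by simp⟩
    obtain ⟨a, ha𝔮, haw⟩ := hreg 𝔮 h𝔮 h1 h2
    exact ha𝔮 (hI𝔮 haw)
  · rw [Set.not_disjoint_iff] at hdis
    obtain ⟨a, haI, s, hs, k, rfl⟩ := hdis
    refine ⟨s, hs, k, ?_⟩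
    have e : (s : F) * π ^ k * w = ((s * (⟨π, hπB⟩ : B) ^ k : B) : F) * w := by
      push_cast
      ring
    rw [e]
    exact haI

/-- `x` is a unit of the localisation of `B` at the prime `𝔮`: `x = a / b`, `a, b ∈ B \ 𝔮`. -/
def UnitAt (B : Subring F) (𝔮 : Ideal B) (x : F) : Prop :=
  ∃ a b : B, a ∉ 𝔮 ∧ b ∉ 𝔮 ∧ x * (b : F) = (a : F)

namespace UnitAt

variable {B : Subring F} {𝔮 : Ideal B}

theorem one [𝔮.IsPrime] : UnitAt B 𝔮 1 :=
  ⟨1, 1, fun h => (Ideal.IsPrime.ne_top inferInstance) ((Ideal.eq_top_iff_one 𝔮).mpr h),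
    fun h => (Ideal.IsPrime.ne_top inferInstance) ((Ideal.eq_top_iff_one 𝔮).mpr h), by simp⟩

theorem of_notMem (b : B) (hb : b ∉ 𝔮) [𝔮.IsPrime] : UnitAt B 𝔮 (b : F) :=
  ⟨b, 1, hb, fun h => (Ideal.IsPrime.ne_top inferInstance) ((Ideal.eq_top_iff_one 𝔮).mpr h),
    by simp⟩

theorem ne_zero {x : F} (hx : UnitAt B 𝔮 x) : x ≠ 0 := by
  obtain ⟨a, b, ha, -, hab⟩ := hx
  rintro rfl
  rw [zero_mul] at hab
  apply ha
  have : a = 0 := Subtype.ext hab.symm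
  rw [this]
  exact 𝔮.zero_mem

theorem mul [𝔮.IsPrime] {x y : F} (hx : UnitAt B 𝔮 x) (hy : UnitAt B 𝔮 y) :
    UnitAt B 𝔮 (x * y) := by
  obtain ⟨a, b, ha, hb, hab⟩ := hx
  obtain ⟨c, d, hc, hd, hcd⟩ := hy
  refine ⟨a * c, b * d, fun h => ?_, fun h => ?_, ?_⟩
  · rcases Ideal.IsPrime.mem_or_mem inferInstance h with h | h
    · exact ha h
    · exact hc h
  · rcases Ideal.IsPrime.mem_or_mem inferInstance h with h | h
    · exact hb h
    · exact hd h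
  · push_cast
    rw [← hab, ← hcd]
    ring

theorem inv {x : F} (hx : UnitAt B 𝔮 x) : UnitAt B 𝔮 x⁻¹ := by
  have hx0 := hx.ne_zero
  obtain ⟨a, b, ha, hb, hab⟩ := hx
  refine ⟨b, a, hb, ha, ?_⟩
  rw [← hab]
  field_simp

theorem pow [𝔮.IsPrime] {x : F} (hx : UnitAt B 𝔮 x) (k : ℕ) : UnitAt B 𝔮 (x ^ k) := by
  induction k with
  | zero => simpa using (one : UnitAt B 𝔮 1)
  | succ k ih =>
    rw [pow_succ]
    exact ih.mul hx

theorem zpow [𝔮.IsPrime] {x : F} (hx : UnitAt B 𝔮 x) (k : ℤ) : UnitAt B 𝔮 (x ^ k) := by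
  cases k with
  | ofNat k => simpa using hx.pow k
  | negSucc k =>
    rw [zpow_negSucc]
    exact (hx.pow (k + 1)).inv

theorem prod [𝔮.IsPrime] {ι : Type*} (s : Finset ι) (x : ι → F)
    (hx : ∀ i ∈ s, UnitAt B 𝔮 (x i)) : UnitAt B 𝔮 (∏ i ∈ s, x i) := by
  classical
  induction s using Finset.induction_on with
  | empty => simpa using (one : UnitAt B 𝔮 1)
  | insert a s ha ih =>
    rw [Finset.prod_insert ha]
    exact (hx a (Finset.mem_insert_self a s)).mul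
      (ih fun i hi => hx i (Finset.mem_insert_of_mem hi))

theorem regular {x : F} (hx : UnitAt B 𝔮 x) : ∃ a : B, a ∉ 𝔮 ∧ (a : F) * x ∈ B := by
  obtain ⟨a, b, -, hb, hab⟩ := hx
  refine ⟨b, hb, ?_⟩
  rw [mul_comm, hab]
  exact a.2

end UnitAt

/-- `InLoc w` and `InLoc w⁻¹` from `UnitAt` at every horizontal prime through `𝔫`. -/
theorem h26_inLoc_of_unitAt (B : Subring F) (π : F) (hπB : π ∈ B)
    (𝔫 : Ideal B) [𝔫.IsPrime] (w : F)
    (hU : ∀ 𝔮 : Ideal B, 𝔮.IsPrime → 𝔮 ≤ 𝔫 → (⟨π, hπB⟩ : B) ∉ 𝔮 → UnitAt B 𝔮 w) :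
    InLoc B π 𝔫 w ∧ InLoc B π 𝔫 w⁻¹ :=
  ⟨h26_inLoc_of_horizontal B π hπB 𝔫 w fun 𝔮 h𝔮 h1 h2 => (hU 𝔮 h𝔮 h1 h2).regular,
    h26_inLoc_of_horizontal B π hπB 𝔫 w⁻¹ fun 𝔮 h𝔮 h1 h2 => (hU 𝔮 h𝔮 h1 h2).inv.regular⟩

section Sections

variable {O : Type*} [CommRing O] [IsDomain O] [Algebra O F]

/-- **(E') / (F3): the assembly of (LP) at a closed point `𝔫` from finitely many rational
points with local equations.** -/
theorem h26_lp_of_sections (B : Subring F) (hOB : ∀ c : O, algebraMap O F c ∈ B)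
    (π : O) (𝔫 : Ideal B) [𝔫.IsPrime]
    (m : ℕ) (f : F) (hf0 : f ≠ 0)
    {ι : Type*} [Fintype ι] (ev : ι → (B →+* O))
    (hdist : ∀ i j : ι, i ≠ j → ∃ z : B, ev j z = 0 ∧ ev i z ≠ 0)
    (d : ι → B) (hd0 : ∀ i, d i ≠ 0) (k : ι → ℕ)
    (hloc : ∀ i, ∀ z : B, ev i z = 0 → ∃ s : B, s ∉ 𝔫 ∧ ∃ g : B,
      s * ((⟨algebraMap O F π, hOB π⟩ : B) ^ k i * z) = d i * g)
    (e : ι → ℤ)
    (hord : ∀ i, ∃ a b : B, ev i a ≠ 0 ∧ ev i b ≠ 0 ∧
      f * (b : F) = ((d i : B) : F) ^ ((m : ℤ) * e i) * (a : F))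
    (hprime : ∀ i, ∀ 𝔮 : Ideal B, 𝔮.IsPrime → 𝔮 ≤ 𝔫 → (⟨algebraMap O F π, hOB π⟩ : B) ∉ 𝔮 →
      (∀ z : B, ev i z = 0 → z ∈ 𝔮) → ∀ z : B, z ∈ 𝔮 → ev i z = 0)
    (hother : ∀ 𝔮 : Ideal B, 𝔮.IsPrime → 𝔮 ≤ 𝔫 → (⟨algebraMap O F π, hOB π⟩ : B) ∉ 𝔮 →
      (∀ i, ∃ z : B, ev i z = 0 ∧ z ∉ 𝔮) → UnitAt B 𝔮 f) :
    ∃ D w₀ : F, D ≠ 0 ∧ w₀ ≠ 0 ∧ f = D ^ m * w₀ ∧
      InLoc B (algebraMap O F π) 𝔫 w₀ ∧ InLoc B (algebraMap O F π) 𝔫 w₀⁻¹ := by
  classical
  have hdF : ∀ i, ((d i : B) : F) ≠ 0 := fun i h => hd0 i (Subtype.ext h)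
  -- a local equation is a unit at every horizontal prime through `𝔫` not containing its kernel
  have hdunit : ∀ i, ∀ 𝔮 : Ideal B, 𝔮.IsPrime → 𝔮 ≤ 𝔫 →
      (⟨algebraMap O F π, hOB π⟩ : B) ∉ 𝔮 → (∃ z : B, ev i z = 0 ∧ z ∉ 𝔮) →
      UnitAt B 𝔮 ((d i : B) : F) := by
    intro i 𝔮 h𝔮 h1 h2 ⟨z, hz, hz𝔮⟩
    haveI := h𝔮
    obtain ⟨s, hs, g, hsg⟩ := hloc i z hz
    refine UnitAt.of_notMem (d i) (fun hd => ?_)
    have hmem : s * ((⟨algebraMap O F π, hOB π⟩ : B) ^ k i * z) ∈ 𝔮 := by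
      rw [hsg]
      exact 𝔮.mul_mem_right _ hd
    rcases Ideal.IsPrime.mem_or_mem h𝔮 hmem with h | h
    · exact hs (h1 h)
    · rcases Ideal.IsPrime.mem_or_mem h𝔮 h with h | h
      · exact h2 (Ideal.IsPrime.mem_of_pow_mem h𝔮 _ h)
      · exact hz𝔮 h
  set x : ι → F := fun i => ((d i : B) : F) ^ ((m : ℤ) * e i) with hx
  have hx0 : ∀ i, x i ≠ 0 := fun i => zpow_ne_zero _ (hdF i)
  set D : F := ∏ i, ((d i : B) : F) ^ e i with hD
  have hD0 : D ≠ 0 := Finset.prod_ne_zero_iff.mpr fun i _ => zpow_ne_zero _ (hdF i)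
  have hDm : D ^ m = ∏ i, x i := by
    rw [hD, ← Finset.prod_pow]
    refine Finset.prod_congr rfl fun i _ => ?_
    rw [hx]
    simp only
    rw [← zpow_natCast, ← zpow_mul, mul_comm]
  have hP0 : (∏ i, x i) ≠ 0 := Finset.prod_ne_zero_iff.mpr fun i _ => hx0 i
  refine ⟨D, f / D ^ m, hD0, div_ne_zero hf0 (pow_ne_zero m hD0), ?_, ?_⟩
  · field_simp
  refine h26_inLoc_of_unitAt B (algebraMap O F π) (hOB π) 𝔫 _ fun 𝔮 h𝔮 h1 h2 => ?_
  haveI := h𝔮
  rw [hDm]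
  by_cases hcase : ∃ i₀, ∀ z : B, ev i₀ z = 0 → z ∈ 𝔮
  · obtain ⟨i₀, hi₀⟩ := hcase
    have hker := hprime i₀ 𝔮 h𝔮 h1 h2 hi₀
    have hsplit : (∏ i, x i) = x i₀ * ∏ i ∈ Finset.univ.erase i₀, x i :=
      (Finset.mul_prod_erase Finset.univ x (Finset.mem_univ i₀)).symm
    have hrest : UnitAt B 𝔮 (∏ i ∈ Finset.univ.erase i₀, x i) := by
      refine UnitAt.prod _ _ fun j hj => ?_
      have hji : j ≠ i₀ := Finset.ne_of_mem_erase hj
      obtain ⟨z, hz, hz'⟩ := hdist i₀ j (Ne.symm hji)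
      exact (hdunit j 𝔮 h𝔮 h1 h2 ⟨z, hz, fun hmem => hz' (hker z hmem)⟩).zpow _
    have hfirst : UnitAt B 𝔮 (f / x i₀) := by
      obtain ⟨a, b, ha, hb, hab⟩ := hord i₀
      refine ⟨a, b, fun h => ha (hker a h), fun h => hb (hker b h), ?_⟩
      have hxi : x i₀ = ((d i₀ : B) : F) ^ ((m : ℤ) * e i₀) := rfl
      rw [div_mul_eq_mul_div, hab, ← hxi, mul_comm, mul_div_assoc, div_self (hx0 i₀), mul_one]
    have e1 : f / ∏ i, x i = (f / x i₀) * (∏ i ∈ Finset.univ.erase i₀, x i)⁻¹ := by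
      rw [hsplit]
      have hne : (∏ i ∈ Finset.univ.erase i₀, x i) ≠ 0 :=
        Finset.prod_ne_zero_iff.mpr fun i _ => hx0 i
      field_simp
    rw [e1]
    exact hfirst.mul hrest.inv
  · have hall : ∀ i, ∃ z : B, ev i z = 0 ∧ z ∉ 𝔮 := by
      intro i
      by_contra hcon
      exact hcase ⟨i, fun z hz => by
        by_contra hz'
        exact hcon ⟨z, hz, hz'⟩⟩
    have hf := hother 𝔮 h𝔮 h1 h2 hall
    have hprod : UnitAt B 𝔮 (∏ i, x i) :=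
      UnitAt.prod _ _ fun j _ => (hdunit j 𝔮 h𝔮 h1 h2 (hall j)).zpow _
    rw [div_eq_mul_inv]
    exact hf.mul hprod.inv

/-- **The hypothesis `hprime` of `h26_lp_of_sections`** for a section `ev` of `O → B`, `O` a
discrete valuation ring in element form: a horizontal prime containing `ker ev` is `ker ev`. -/
theorem h26_section_prime (B : Subring F) (hOB : ∀ c : O, algebraMap O F c ∈ B)
    (π : O) (hsep : ∀ c : O, c ≠ 0 → ∃ N : ℕ, ¬ π ^ N ∣ c)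
    (hOloc : ∀ c : O, ¬ π ∣ c → IsUnit c)
    (ev : B →+* O) (hevO : ∀ c : O, ev ⟨algebraMap O F c, hOB c⟩ = c)
    (𝔮 : Ideal B) (h𝔮 : 𝔮.IsPrime) (hπ𝔮 : (⟨algebraMap O F π, hOB π⟩ : B) ∉ 𝔮)
    (hker : ∀ z : B, ev z = 0 → z ∈ 𝔮) (z : B) (hz : z ∈ 𝔮) : ev z = 0 := by
  by_contra hne
  -- `c := ev z ∈ 𝔮`
  have hc𝔮 : (⟨algebraMap O F (ev z), hOB _⟩ : B) ∈ 𝔮 := by
    have h1 : z - ⟨algebraMap O F (ev z), hOB _⟩ ∈ 𝔮 := by
      apply hker
      rw [map_sub, hevO, sub_self]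
    have e : (⟨algebraMap O F (ev z), hOB _⟩ : B) = z - (z - ⟨algebraMap O F (ev z), hOB _⟩) := by
      ring
    rw [e]
    exact 𝔮.sub_mem hz h1
  -- no nonzero constant lies in `𝔮`
  have key : ∀ N : ℕ, ∀ c : O, ¬ π ^ N ∣ c → (⟨algebraMap O F c, hOB c⟩ : B) ∉ 𝔮 := by
    intro N
    induction N with
    | zero =>
      intro c hc
      exact absurd (one_dvd c) (by simpa using hc)
    | succ N ih =>
      intro c hc hmem
      by_cases hπc : π ∣ c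
      · obtain ⟨c', rfl⟩ := hπc
        have hc' : ¬ π ^ N ∣ c' := fun h => hc (by
          rw [pow_succ']
          exact mul_dvd_mul_left π h)
        have e : (⟨algebraMap O F (π * c'), hOB _⟩ : B) =
            ⟨algebraMap O F π, hOB π⟩ * ⟨algebraMap O F c', hOB c'⟩ := by
          apply Subtype.ext
          show algebraMap O F (π * c') = algebraMap O F π * algebraMap O F c'
          rw [map_mul]
        rw [e] at hmem
        rcases Ideal.IsPrime.mem_or_mem h𝔮 hmem with h | h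
        · exact hπ𝔮 h
        · exact ih c' hc' h
      · obtain ⟨u, hu⟩ := (hOloc c hπc).exists_right_inv
        have h1 : (1 : B) ∈ 𝔮 := by
          have e : (1 : B) = ⟨algebraMap O F c, hOB c⟩ * ⟨algebraMap O F u, hOB u⟩ := by
            apply Subtype.ext
            show (1 : F) = algebraMap O F c * algebraMap O F u
            rw [← map_mul, hu, map_one]
          rw [e]
          exact 𝔮.mul_mem_right _ hmem
        exact (Ideal.IsPrime.ne_top h𝔮) ((Ideal.eq_top_iff_one 𝔮).mpr h1)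
  obtain ⟨N, hN⟩ := hsep (ev z) hne
  exact key N (ev z) hN hc𝔮

/-- **Transfer of the order** from any uniformiser `ϖ` at the point (REG_P) to the local equation
`d` delivered by `h23_node_lp`. -/
theorem h26_ord_transfer (B : Subring F) (hOB : ∀ c : O, algebraMap O F c ∈ B)
    (π : O) (hπ : π ≠ 0) (𝔫 : Ideal B)
    (ev : B →+* O) (hevO : ∀ c : O, ev ⟨algebraMap O F c, hOB c⟩ = c)
    (hevn : ∀ b : B, ev b = 0 → b ∈ 𝔫)
    (d : B) (hd0 : d ≠ 0) (hdev : ev d = 0) (k : ℕ)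
    (hloc : ∀ z : B, ev z = 0 → ∃ s : B, s ∉ 𝔫 ∧ ∃ g : B,
      s * ((⟨algebraMap O F π, hOB π⟩ : B) ^ k * z) = d * g)
    (ϖ r : B) (hϖ0 : ϖ ≠ 0) (hϖ : ev ϖ = 0) (hr : ev r ≠ 0)
    (hreg : ∀ z : B, ev z = 0 → ∃ s : B, s ∉ 𝔫 ∧ ∃ g : B, s * (r * z) = ϖ * g)
    (f : F) (E : ℤ) (a b : B) (ha : ev a ≠ 0) (hb : ev b ≠ 0)
    (hab : f * (b : F) = (ϖ : F) ^ E * (a : F)) :
    ∃ a' b' : B, ev a' ≠ 0 ∧ ev b' ≠ 0 ∧ f * (b' : F) = (d : F) ^ E * (a' : F) := by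
  obtain ⟨s₁, hs₁, g₁, h₁⟩ := hloc ϖ hϖ
  obtain ⟨s₂, hs₂, g₂, h₂⟩ := hreg d hdev
  have hevs : ∀ s : B, s ∉ 𝔫 → ev s ≠ 0 := fun s hs h => hs (hevn s h)
  have hevπ : ev (⟨algebraMap O F π, hOB π⟩ : B) = π := hevO π
  obtain ⟨u, hu⟩ : ∃ u : B, u = s₁ * (⟨algebraMap O F π, hOB π⟩ : B) ^ k := ⟨_, rfl⟩
  have hu_ev : ev u ≠ 0 := by
    rw [hu, map_mul, map_pow, hevπ]
    exact mul_ne_zero (hevs s₁ hs₁) (pow_ne_zero _ hπ)
  -- `u ϖ = d g₁`, and `g₁ g₂ = u s₂ r`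
  have h₁' : u * ϖ = d * g₁ := by rw [hu, mul_assoc]; exact h₁
  have hgg : g₁ * g₂ = u * (s₂ * r) := by
    have h3 : (d * ϖ) * (g₁ * g₂) = (d * ϖ) * (u * (s₂ * r)) := by
      have e1 : (d * ϖ) * (g₁ * g₂) = (d * g₁) * (ϖ * g₂) := by ring
      have e2 : (d * ϖ) * (u * (s₂ * r)) = (u * ϖ) * (s₂ * (r * d)) := by ring
      rw [e1, e2, ← h₁', ← h₂]
    exact mul_left_cancel₀ (mul_ne_zero hd0 hϖ0) h3
  have hg₁ : ev g₁ ≠ 0 := by
    intro h
    have h5 : ev (g₁ * g₂) = 0 := by rw [map_mul, h, zero_mul]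
    have h6 : ev (g₁ * g₂) = ev u * (ev s₂ * ev r) := by rw [hgg, map_mul, map_mul]
    rw [h6] at h5
    exact mul_ne_zero hu_ev (mul_ne_zero (hevs s₂ hs₂) hr) h5
  have hdF : (d : F) ≠ 0 := fun h => hd0 (Subtype.ext h)
  have huF : (u : F) ≠ 0 := fun h => hu_ev (by
    have : u = 0 := Subtype.ext h
    rw [this, map_zero])
  have hg₁F : (g₁ : F) ≠ 0 := fun h => hg₁ (by
    have : g₁ = 0 := Subtype.ext h
    rw [this, map_zero])
  have hϖF : (ϖ : F) = (d : F) * ((g₁ : F) / (u : F)) := by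
    have h4 : (u : F) * (ϖ : F) = (d : F) * (g₁ : F) := by
      have := congrArg (Subtype.val) h₁'
      simpa using this
    field_simp
    linear_combination h4
  cases E with
  | ofNat n =>
    refine ⟨a * g₁ ^ n, b * u ^ n, ?_, ?_, ?_⟩
    · rw [map_mul, map_pow]
      exact mul_ne_zero ha (pow_ne_zero _ hg₁)
    · rw [map_mul, map_pow]
      exact mul_ne_zero hb (pow_ne_zero _ hu_ev)
    · have e : f * ((b * u ^ n : B) : F) = (f * (b : F)) * (u : F) ^ n := by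
        push_cast
        ring
      rw [e, hab, hϖF]
      simp only [Int.ofNat_eq_natCast, zpow_natCast]
      push_cast
      rw [mul_pow, div_pow]
      field_simp
  | negSucc n =>
    refine ⟨a * u ^ (n + 1), b * g₁ ^ (n + 1), ?_, ?_, ?_⟩
    · rw [map_mul, map_pow]
      exact mul_ne_zero ha (pow_ne_zero _ hu_ev)
    · rw [map_mul, map_pow]
      exact mul_ne_zero hb (pow_ne_zero _ hg₁)
    · have e : f * ((b * g₁ ^ (n + 1) : B) : F) = (f * (b : F)) * (g₁ : F) ^ (n + 1) := by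
        push_cast
        ring
      rw [e, hab, hϖF]
      simp only [zpow_negSucc]
      push_cast
      rw [mul_pow, div_pow]
      field_simp

end Sections

end Fermat.Agent.S34x.Loc.H26
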