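import Mathlib
import Fermat.Agent.S34x.Loc.H26_Points
import Fermat.Agent.S34x.Node.H23_NodeChart

/-!
# S34 (W10): (LP) at a crossing point, glued (helper26)

`h26_lp_cross` : the hypothesis `hLP` of `h26_ss_abs` / `h26_ss_pow` at a crossing point `𝔫` of a
chart `B ⊆ F`, from

* the node data at `𝔫` in the spelling of `Fermat.Agent.S34x.Node.H23.h23_node_lp`
  (= the output of the abstract Goursat lemma): `x, y, q1, q2, hgen, hgen1, hgen2, hxy, hres`;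
* finitely many sections `ev i : B →+* O` of `O → B` centred at `𝔫` (the rational points through
  `𝔫` in the support of `div f`), pairwise with different kernels, each with a uniformiser
  `ϖ i` (REG_P) and an order `f = (ϖ i) ^ (m * e i) * (a / b)`, `ev i a ≠ 0 ≠ ev i b`;
* `f` is a unit at every other horizontal prime through `𝔫`.

Glue of `h23_node_lp` (local equations), `h26_ord_transfer`, `h26_section_prime` and
`h26_lp_of_sections`.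
-/

set_option autoImplicit false
set_option linter.style.haveILetI false
set_option linter.unusedSectionVars false

namespace Fermat.Agent.S34x.Loc.H26

variable {F : Type*} [Field F] {O : Type*} [CommRing O] [IsDomain O] [Algebra O F]

/-- **(LP) at a crossing point.** -/
theorem h26_lp_cross (B : Subring F) [IsNoetherianRing B] (hOB : ∀ c : O, algebraMap O F c ∈ B)
    (π : O) (hπ : π ≠ 0) (hsep : ∀ c : O, c ≠ 0 → ∃ N : ℕ, ¬ π ^ N ∣ c)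
    (hOloc : ∀ c : O, ¬ π ∣ c → IsUnit c)
    (𝔫 : Ideal B) [𝔫.IsPrime] (x y : B)
    (hxn : x ∈ 𝔫) (hyn : y ∈ 𝔫) (hπn : (⟨algebraMap O F π, hOB π⟩ : B) ∈ 𝔫)
    (hgen : ∀ b ∈ 𝔫, ∃ s ∉ 𝔫, ∃ a1 a2 a3 : B,
      s * b = a1 * x + a2 * y + a3 * (⟨algebraMap O F π, hOB π⟩ : B))
    (hres : ∀ b : B, ∃ c : O, b - (⟨algebraMap O F c, hOB c⟩ : B) ∈ 𝔫)
    (hxy : ∃ s ∉ 𝔫, ∃ a : B, s * (x * y) = (⟨algebraMap O F π, hOB π⟩ : B) * a)
    (q1 q2 : Ideal B) [q1.IsPrime] [q2.IsPrime] (hq1n : q1 ≤ 𝔫) (hq2n : q2 ≤ 𝔫)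
    (hyq1 : y ∈ q1) (hπq1 : (⟨algebraMap O F π, hOB π⟩ : B) ∈ q1) (hxq1 : x ∉ q1)
    (hgen1 : ∀ b ∈ q1, ∃ s ∉ 𝔫, ∃ a1 a2 : B,
      s * b = a1 * y + a2 * (⟨algebraMap O F π, hOB π⟩ : B))
    (hxq2 : x ∈ q2) (hπq2 : (⟨algebraMap O F π, hOB π⟩ : B) ∈ q2) (hyq2 : y ∉ q2)
    (hgen2 : ∀ b ∈ q2, ∃ s ∉ 𝔫, ∃ a1 a2 : B,
      s * b = a1 * x + a2 * (⟨algebraMap O F π, hOB π⟩ : B))
    (m : ℕ) (f : F) (hf0 : f ≠ 0)
    {ι : Type*} [Fintype ι] (ev : ι → (B →+* O))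
    (hevO : ∀ i, ∀ c : O, ev i ⟨algebraMap O F c, hOB c⟩ = c)
    (hev : ∀ i, ∀ b : B, b ∈ 𝔫 ↔ π ∣ ev i b)
    (hdist : ∀ i j : ι, i ≠ j → ∃ z : B, ev j z = 0 ∧ ev i z ≠ 0)
    (ϖ r : ι → B) (hϖ : ∀ i, ev i (ϖ i) = 0) (hr : ∀ i, ev i (r i) ≠ 0)
    (hreg : ∀ i, ∀ z : B, ev i z = 0 → ∃ s ∉ 𝔫, ∃ g : B, s * (r i * z) = ϖ i * g)
    (e : ι → ℤ)
    (hord : ∀ i, ∃ a b : B, ev i a ≠ 0 ∧ ev i b ≠ 0 ∧
      f * (b : F) = ((ϖ i : B) : F) ^ ((m : ℤ) * e i) * (a : F))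
    (hother : ∀ 𝔮 : Ideal B, 𝔮.IsPrime → 𝔮 ≤ 𝔫 → (⟨algebraMap O F π, hOB π⟩ : B) ∉ 𝔮 →
      (∀ i, ∃ z : B, ev i z = 0 ∧ z ∉ 𝔮) → UnitAt B 𝔮 f) :
    ∃ D w₀ : F, D ≠ 0 ∧ w₀ ≠ 0 ∧ f = D ^ m * w₀ ∧
      InLoc B (algebraMap O F π) 𝔫 w₀ ∧ InLoc B (algebraMap O F π) 𝔫 w₀⁻¹ := by
  classical
  letI : Algebra O B := (RingHom.codRestrict (algebraMap O F) B hOB).toAlgebra
  have halg : ∀ c : O, algebraMap O B c = ⟨algebraMap O F c, hOB c⟩ := fun _ => rfl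
  -- the local equations
  have hd : ∀ i, ∃ (d : B) (k : ℕ), d ≠ 0 ∧ ev i d = 0 ∧
      ∀ z : B, ev i z = 0 → ∃ s ∉ 𝔫, ∃ g : B,
        s * ((⟨algebraMap O F π, hOB π⟩ : B) ^ k * z) = d * g := by
    intro i
    let evA : B →ₐ[O] O := { ev i with commutes' := fun c => hevO i c }
    have hevA : ∀ b : B, evA b = ev i b := fun _ => rfl
    exact Node.H23.h23_node_lp 𝔫 π hπ hsep hOloc x y hxn hyn hπn hgen hres hxy q1 q2 hq1n hq2n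
      hyq1 hπq1 hxq1 hgen1 hxq2 hπq2 hyq2 hgen2 evA (hev i) (ϖ i) (r i) (hϖ i) (hr i) (hreg i)
  choose d k hd0 hdev hloc using hd
  have hevn : ∀ i, ∀ b : B, ev i b = 0 → b ∈ 𝔫 := fun i b hb =>
    (hev i b).mpr (hb ▸ dvd_zero π)
  have hϖ0 : ∀ i, ϖ i ≠ 0 := by
    intro i h0
    -- `ϖ i = 0` and (REG_P) force `r i * z = 0` for all `z` vanishing at the point, e.g. `z = d i`
    obtain ⟨s, hs, g, hsg⟩ := hreg i (d i) (hdev i)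
    rw [h0, zero_mul] at hsg
    rcases mul_eq_zero.mp hsg with h | h
    · exact hs (h ▸ 𝔫.zero_mem)
    · rcases mul_eq_zero.mp h with h | h
      · exact hr i (by rw [h, map_zero])
      · exact hd0 i h
  refine h26_lp_of_sections B hOB π 𝔫 m f hf0 ev hdist d hd0 k hloc e ?_ ?_ hother
  · intro i
    obtain ⟨a, b, ha, hb, hab⟩ := hord i
    exact h26_ord_transfer B hOB π hπ 𝔫 (ev i) (hevO i) (hevn i) (d i) (hd0 i) (hdev i) (k i)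
      (hloc i) (ϖ i) (r i) (hϖ0 i) (hϖ i) (hr i) (hreg i) f _ a b ha hb hab
  · intro i 𝔮 h𝔮 _ hπ𝔮 hker z hz
    exact h26_section_prime B hOB π hsep hOloc (ev i) (hevO i) 𝔮 h𝔮 hπ𝔮 hker z hz

end Fermat.Agent.S34x.Loc.H26
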