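import Mathlib
import Fermat.Agent.S34x.Cross.H18_Base
import Fermat.Agent.S34x.Loc.H26_LPInst

/-!
# S34 (W10): the devissage step over a number field with the (LP) package discharged
(helper26)

`h26_base_step_comp` : helper18's `h18_base_step` (the step `p ^ k → p ^ (k + 1)` for the second
difference of a modular function of level `N` over the number field `K`, coordinate
`x = coordM K N x₀ hmem`, `x' = x⁻¹`) with `hLP₁`, `hLP₂` REPLACED by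

* `hcomp₁`, `hcomp₂` : `H7Comp` on the two charts (the export of stage (C), helper7),
* `hdiv`, `hrat` : the two hypotheses handed over by `Desc.H12.H12StepPack`, VERBATIM.

Every other binder is that of `h18_base_step`, VERBATIM and in the same order.
`h26_LP_base₁` / `h26_LP_base₂` : `hLP₁` / `hLP₂` of `h18_base_step` alone.
-/

set_option autoImplicit false
set_option linter.unusedSectionVars false
set_option linter.style.haveILetI false
set_option synthInstance.maxHeartbeats 400000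
set_option maxHeartbeats 1000000

noncomputable section

namespace Fermat.Agent.S34x.Loc.H26

open AlgebraicCurve ModularCurve IntermediateField Polynomial
open Fermat.Agent.S18x.Dict.H20 Fermat.Agent.S18x.Dict.H22 Fermat.Agent.S18x.Dict.H7
open Fermat.Agent.S18x.Spec.H26 Fermat.Agent.S34x.Comp.H7
open Fermat.Agent.S34x.Desc.H12

local notation "Lbar" => AlgebraicClosure ℚ

variable (A₀ : ValuationSubring Lbar) (N : ℕ) [NeZero N] (K : IntermediateField ℚ Lbar)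
  [IsDiscreteValuationRing (A₀.comap (algebraMap ↥K Lbar))]
  [Algebra (A₀.comap (algebraMap ↥K Lbar)) ↥(modularFunctionFieldFullC ↥K N)]
  [IsScalarTower (A₀.comap (algebraMap ↥K Lbar)) ↥K ↥(modularFunctionFieldFullC ↥K N)]

/-- **`hLP₁` of `h18_base_step`** from `H7Comp` on the first chart. -/
theorem h26_LP_base₁ (x₀ : LaurentSeries ℤ) (hord : x₀.order = -1) (hlead : x₀.coeff (-1) = 1)
    (hmem : coeffMap (Int.castRingHom ↥K) x₀ ∈ modularFunctionFieldFullC ↥K N)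
    (π₀ : A₀.comap (algebraMap ↥K Lbar)) (hπ₀ : Irreducible π₀)
    (hcomp₁ : H7Comp
      (⟨algebraMap (A₀.comap (algebraMap ↥K Lbar)) ↥(modularFunctionFieldFullC ↥K N) π₀,
        (chart (A₀.comap (algebraMap ↥K Lbar))
          (Fermat.Agent.S18x.IG.H29.coordM ↥K N x₀ hmem)).algebraMap_mem π₀⟩ :
        (chart (A₀.comap (algebraMap ↥K Lbar))
          (Fermat.Agent.S18x.IG.H29.coordM ↥K N x₀ hmem)).toSubring))
    (m : ℕ) (hm : 0 < m)
    (f : ↥(modularFunctionFieldFullC ↥K N)) (hf0 : f ≠ 0)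
    (hdiv : ∀ v : Place ↥K ↥(modularFunctionFieldFullC ↥K N), (m : ℤ) ∣ v.ord f)
    (hrat : ∀ v : Place ↥K ↥(modularFunctionFieldFullC ↥K N), v.ord f ≠ 0 →
      Fermat.Agent.S24.RH.ResidueTrivial v) :
    ∀ 𝔫 : Ideal (chart (A₀.comap (algebraMap ↥K Lbar))
        (Fermat.Agent.S18x.IG.H29.coordM ↥K N x₀ hmem)).toSubring, 𝔫.IsMaximal →
      (⟨algebraMap (A₀.comap (algebraMap ↥K Lbar)) ↥(modularFunctionFieldFullC ↥K N) π₀,
        (chart (A₀.comap (algebraMap ↥K Lbar))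
          (Fermat.Agent.S18x.IG.H29.coordM ↥K N x₀ hmem)).algebraMap_mem π₀⟩ :
        (chart (A₀.comap (algebraMap ↥K Lbar))
          (Fermat.Agent.S18x.IG.H29.coordM ↥K N x₀ hmem)).toSubring) ∈ 𝔫 →
      ∃ d w₀ : ↥(modularFunctionFieldFullC ↥K N), d ≠ 0 ∧ w₀ ≠ 0 ∧ f = d ^ m * w₀ ∧
        InLoc (chart (A₀.comap (algebraMap ↥K Lbar))
            (Fermat.Agent.S18x.IG.H29.coordM ↥K N x₀ hmem)).toSubring
          (algebraMap (A₀.comap (algebraMap ↥K Lbar)) ↥(modularFunctionFieldFullC ↥K N) π₀)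
          𝔫 w₀ ∧
        InLoc (chart (A₀.comap (algebraMap ↥K Lbar))
            (Fermat.Agent.S18x.IG.H29.coordM ↥K N x₀ hmem)).toSubring
          (algebraMap (A₀.comap (algebraMap ↥K Lbar)) ↥(modularFunctionFieldFullC ↥K N) π₀)
          𝔫 w₀⁻¹ := by
  obtain ⟨-, hx, hfin, -, -⟩ :=
    Fermat.Agent.S18x.IG.H29.coord_inputs (A₀.comap (algebraMap ↥K Lbar)) N x₀ hmem hord hlead
  exact h26_LP_first (K := ↥K) π₀ hπ₀ hx hfin hcomp₁ m hm f hf0 hdiv hrat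

/-- **`hLP₂` of `h18_base_step`** from `H7Comp` on the second chart. -/
theorem h26_LP_base₂ (x₀ : LaurentSeries ℤ) (hord : x₀.order = -1) (hlead : x₀.coeff (-1) = 1)
    (hmem : coeffMap (Int.castRingHom ↥K) x₀ ∈ modularFunctionFieldFullC ↥K N)
    (π₀ : A₀.comap (algebraMap ↥K Lbar)) (hπ₀ : Irreducible π₀)
    (hcomp₂ : H7Comp
      (⟨algebraMap (A₀.comap (algebraMap ↥K Lbar)) ↥(modularFunctionFieldFullC ↥K N) π₀,
        (chart (A₀.comap (algebraMap ↥K Lbar))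
          (Fermat.Agent.S18x.IG.H29.coordM ↥K N x₀ hmem)⁻¹).algebraMap_mem π₀⟩ :
        (chart (A₀.comap (algebraMap ↥K Lbar))
          (Fermat.Agent.S18x.IG.H29.coordM ↥K N x₀ hmem)⁻¹).toSubring))
    (m : ℕ) (hm : 0 < m)
    (f : ↥(modularFunctionFieldFullC ↥K N)) (hf0 : f ≠ 0)
    (hdiv : ∀ v : Place ↥K ↥(modularFunctionFieldFullC ↥K N), (m : ℤ) ∣ v.ord f)
    (hrat : ∀ v : Place ↥K ↥(modularFunctionFieldFullC ↥K N), v.ord f ≠ 0 →
      Fermat.Agent.S24.RH.ResidueTrivial v) :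
    ∀ 𝔫 : Ideal (chart (A₀.comap (algebraMap ↥K Lbar))
        (Fermat.Agent.S18x.IG.H29.coordM ↥K N x₀ hmem)⁻¹).toSubring, 𝔫.IsMaximal →
      (⟨algebraMap (A₀.comap (algebraMap ↥K Lbar)) ↥(modularFunctionFieldFullC ↥K N) π₀,
        (chart (A₀.comap (algebraMap ↥K Lbar))
          (Fermat.Agent.S18x.IG.H29.coordM ↥K N x₀ hmem)⁻¹).algebraMap_mem π₀⟩ :
        (chart (A₀.comap (algebraMap ↥K Lbar))
          (Fermat.Agent.S18x.IG.H29.coordM ↥K N x₀ hmem)⁻¹).toSubring) ∈ 𝔫 →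
      ∃ d w₀ : ↥(modularFunctionFieldFullC ↥K N), d ≠ 0 ∧ w₀ ≠ 0 ∧ f = d ^ m * w₀ ∧
        InLoc (chart (A₀.comap (algebraMap ↥K Lbar))
            (Fermat.Agent.S18x.IG.H29.coordM ↥K N x₀ hmem)⁻¹).toSubring
          (algebraMap (A₀.comap (algebraMap ↥K Lbar)) ↥(modularFunctionFieldFullC ↥K N) π₀)
          𝔫 w₀ ∧
        InLoc (chart (A₀.comap (algebraMap ↥K Lbar))
            (Fermat.Agent.S18x.IG.H29.coordM ↥K N x₀ hmem)⁻¹).toSubring
          (algebraMap (A₀.comap (algebraMap ↥K Lbar)) ↥(modularFunctionFieldFullC ↥K N) π₀)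
          𝔫 w₀⁻¹ := by
  obtain ⟨hxx', hx, hfin, -, -⟩ :=
    Fermat.Agent.S18x.IG.H29.coord_inputs (A₀.comap (algebraMap ↥K Lbar)) N x₀ hmem hord hlead
  exact h26_LP_second (K := ↥K) π₀ hπ₀ hxx' hx hfin hcomp₂ m hm f hf0 hdiv hrat

/-- **The devissage step over a number field, from the component structure of the special
fibre**: `h18_base_step` with (LP) discharged. -/
theorem h26_base_step_comp (σ : ↥K ≃+* ↥K)
    (hσO : ∀ a ∈ A₀.comap (algebraMap ↥K Lbar), σ a ∈ A₀.comap (algebraMap ↥K Lbar))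
    (x₀ : LaurentSeries ℤ) (hord : x₀.order = -1) (hlead : x₀.coeff (-1) = 1)
    (hmem : coeffMap (Int.castRingHom ↥K) x₀ ∈ modularFunctionFieldFullC ↥K N)
    (π₀ : A₀.comap (algebraMap ↥K Lbar)) (hπ₀ : Irreducible π₀)
    (V : Subring ↥(modularFunctionFieldFullC ↥K N))
    (hVic : ∀ y : ↥(modularFunctionFieldFullC ↥K N), IsIntegral V y → y ∈ V)
    (hOV : ∀ c : A₀.comap (algebraMap ↥K Lbar),
      algebraMap (A₀.comap (algebraMap ↥K Lbar)) ↥(modularFunctionFieldFullC ↥K N) c ∈ V)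
    (hxV : (Fermat.Agent.S18x.IG.H29.coordM ↥K N x₀ hmem) ∈ V)
    (hx'V : (Fermat.Agent.S18x.IG.H29.coordM ↥K N x₀ hmem)⁻¹ ∈ V)
    (hπV : ∀ v ∈ V,
      algebraMap (A₀.comap (algebraMap ↥K Lbar)) ↥(modularFunctionFieldFullC ↥K N) π₀ * v ≠ 1)
    (hsat₁ : ∀ v ∈ V,
      algebraMap (A₀.comap (algebraMap ↥K Lbar)) ↥(modularFunctionFieldFullC ↥K N) π₀ * v ∈
        chart (A₀.comap (algebraMap ↥K Lbar)) (Fermat.Agent.S18x.IG.H29.coordM ↥K N x₀ hmem) →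
      v ∈ chart (A₀.comap (algebraMap ↥K Lbar)) (Fermat.Agent.S18x.IG.H29.coordM ↥K N x₀ hmem))
    (hsat₂ : ∀ v ∈ V,
      algebraMap (A₀.comap (algebraMap ↥K Lbar)) ↥(modularFunctionFieldFullC ↥K N) π₀ * v ∈
        chart (A₀.comap (algebraMap ↥K Lbar))
          (Fermat.Agent.S18x.IG.H29.coordM ↥K N x₀ hmem)⁻¹ →
      v ∈ chart (A₀.comap (algebraMap ↥K Lbar))
        (Fermat.Agent.S18x.IG.H29.coordM ↥K N x₀ hmem)⁻¹)
    (hsat₁₂ : ∀ v ∈ V,
      algebraMap (A₀.comap (algebraMap ↥K Lbar)) ↥(modularFunctionFieldFullC ↥K N) π₀ * v ∈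
        chart₁₂ (A₀.comap (algebraMap ↥K Lbar)) (Fermat.Agent.S18x.IG.H29.coordM ↥K N x₀ hmem)
          (Fermat.Agent.S18x.IG.H29.coordM ↥K N x₀ hmem)⁻¹ →
      v ∈ chart₁₂ (A₀.comap (algebraMap ↥K Lbar)) (Fermat.Agent.S18x.IG.H29.coordM ↥K N x₀ hmem)
        (Fermat.Agent.S18x.IG.H29.coordM ↥K N x₀ hmem)⁻¹)
    (p : ℕ) (hp : p.Prime) (μ₀ : A₀.comap (algebraMap ↥K Lbar))
    (hμ : μ₀ * (p : A₀.comap (algebraMap ↥K Lbar)) = 1)
    (n k : ℕ) (hkn : k < n)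
    (ζ₀ : A₀.comap (algebraMap ↥K Lbar)) (hζ₀ : IsPrimitiveRoot ζ₀ (p ^ n))
    (P₁ P₂ : Ideal V) [P₁.IsPrime] [P₂.IsPrime]
    (hπ₁ : (⟨algebraMap (A₀.comap (algebraMap ↥K Lbar)) ↥(modularFunctionFieldFullC ↥K N) π₀,
      hOV π₀⟩ : V) ∈ P₁)
    (hπ₂ : (⟨algebraMap (A₀.comap (algebraMap ↥K Lbar)) ↥(modularFunctionFieldFullC ↥K N) π₀,
      hOV π₀⟩ : V) ∈ P₂)
    (hcap : ∀ v : V, v ∈ P₁ → v ∈ P₂ → ∃ c ∈ V, (v : ↥(modularFunctionFieldFullC ↥K N)) =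
      algebraMap (A₀.comap (algebraMap ↥K Lbar)) ↥(modularFunctionFieldFullC ↥K N) π₀ * c)
    (ε ε' : A₀.comap (algebraMap ↥K Lbar)) (hεε' : ε * ε' = 1)
    (hε : tauF N σ
        (algebraMap (A₀.comap (algebraMap ↥K Lbar)) ↥(modularFunctionFieldFullC ↥K N) π₀) =
      algebraMap (A₀.comap (algebraMap ↥K Lbar)) ↥(modularFunctionFieldFullC ↥K N) ε *
        algebraMap (A₀.comap (algebraMap ↥K Lbar)) ↥(modularFunctionFieldFullC ↥K N) π₀)
    (htriv : ∀ v ∈ V, ∃ c ∈ V, tauF N σ v - v =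
      algebraMap (A₀.comap (algebraMap ↥K Lbar)) ↥(modularFunctionFieldFullC ↥K N) π₀ * c)
    (hU : ∀ g : ↥(modularFunctionFieldFullC ↥K N), g ≠ 0 →
      tauF N σ g / g ∈ V ∧ g / tauF N σ g ∈ V)
    (f : ↥(modularFunctionFieldFullC ↥K N)) (hf0 : f ≠ 0)
    (hcomp₁ : H7Comp
      (⟨algebraMap (A₀.comap (algebraMap ↥K Lbar)) ↥(modularFunctionFieldFullC ↥K N) π₀,
        (chart (A₀.comap (algebraMap ↥K Lbar))
          (Fermat.Agent.S18x.IG.H29.coordM ↥K N x₀ hmem)).algebraMap_mem π₀⟩ :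
        (chart (A₀.comap (algebraMap ↥K Lbar))
          (Fermat.Agent.S18x.IG.H29.coordM ↥K N x₀ hmem)).toSubring))
    (hcomp₂ : H7Comp
      (⟨algebraMap (A₀.comap (algebraMap ↥K Lbar)) ↥(modularFunctionFieldFullC ↥K N) π₀,
        (chart (A₀.comap (algebraMap ↥K Lbar))
          (Fermat.Agent.S18x.IG.H29.coordM ↥K N x₀ hmem)⁻¹).algebraMap_mem π₀⟩ :
        (chart (A₀.comap (algebraMap ↥K Lbar))
          (Fermat.Agent.S18x.IG.H29.coordM ↥K N x₀ hmem)⁻¹).toSubring))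
    (hdiv : ∀ v : Place ↥K ↥(modularFunctionFieldFullC ↥K N), ((p ^ n : ℕ) : ℤ) ∣ v.ord f)
    (hrat : ∀ v : Place ↥K ↥(modularFunctionFieldFullC ↥K N), v.ord f ≠ 0 →
      Fermat.Agent.S24.RH.ResidueTrivial v)
    (g : ↥(modularFunctionFieldFullC ↥K N))
    (hg : g ^ (p ^ k) = secondDiff (tauF N σ) f) :
    ∃ t : ↥(modularFunctionFieldBar N),
      t ^ (p ^ (k + 1)) = iotaK ↥K N (secondDiff (tauF N σ) f) :=
  Fermat.Agent.S34x.Cross.H18.h18_base_step A₀ N K σ hσO x₀ hord hlead hmem π₀ hπ₀ V hVic hOV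
    hxV hx'V hπV hsat₁ hsat₂ hsat₁₂ p hp μ₀ hμ n k hkn ζ₀ hζ₀ P₁ P₂ hπ₁ hπ₂ hcap ε ε' hεε' hε
    htriv hU f hf0
    (h26_LP_base₁ A₀ N K x₀ hord hlead hmem π₀ hπ₀ hcomp₁ (p ^ n) (pow_pos hp.pos n) f hf0 hdiv
      hrat)
    (h26_LP_base₂ A₀ N K x₀ hord hlead hmem π₀ hπ₀ hcomp₂ (p ^ n) (pow_pos hp.pos n) f hf0 hdiv
      hrat)
    g hg

end Fermat.Agent.S34x.Loc.H26
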