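import Mathlib
import Fermat.Agent.S34x.Loc.H26_LPInst
import Fermat.Agent.S34x.Cross.H18_Step

/-!
# S34 (W10): the devissage step with the (LP) package discharged (helper26)

`h26_ss_step_comp` : helper18's `h18_ss_step` with `hLP₁`, `hLP₂` REPLACED by

* `hcomp₁`, `hcomp₂` : `H7Comp` on the two charts (the export of stage (C), helper7),
* `hdiv` : `p ^ n ∣ ord_v f` at every place `v` of `F / K`,
* `hrat` : the zeros and poles of `f` are `K`-rational (`ResidueTrivial`),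

the last two in the spelling of `Desc.H12.H12StepPack`.  Every other hypothesis is that of
`h18_ss_step`, VERBATIM and in the same order; `O` is a discrete valuation ring and `π₀` is
given as an irreducible element.
-/

set_option autoImplicit false
set_option linter.unusedSectionVars false
set_option linter.style.haveILetI false

open Polynomial

namespace Fermat.Agent.S34x.Loc.H26

open AlgebraicCurve Fermat.Agent.S34x.Comp.H7 Fermat.Agent.S18x.Spec.H26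

variable {O K F E : Type*} [CommRing O] [IsDomain O] [IsDiscreteValuationRing O]
  [Field K] [Field F] [CharZero F] [Algebra O K] [IsFractionRing O K] [Algebra K F]
  [Algebra O F] [IsScalarTower O K F] [Field E] [Algebra F E]

/-- **The devissage step for a second difference, from the component structure of the special
fibre** (`h18_ss_step` with (LP) discharged by `h26_LP_first` / `h26_LP_second`). -/
theorem h26_ss_step_comp (π₀ : O) (hπ₀ : Irreducible π₀) (j j' : F) (hjj' : j * j' = 1)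
    (hj : Transcendental O j) (hfinF : H26FinOver O j)
    (V : Subring F) (hVic : ∀ y : F, IsIntegral V y → y ∈ V)
    (hOV : ∀ c : O, algebraMap O F c ∈ V) (hjV : j ∈ V) (hj'V : j' ∈ V)
    (hπV : ∀ v ∈ V, algebraMap O F π₀ * v ≠ 1)
    (hsat₁ : ∀ v ∈ V, algebraMap O F π₀ * v ∈ chart O j → v ∈ chart O j)
    (hsat₂ : ∀ v ∈ V, algebraMap O F π₀ * v ∈ chart O j' → v ∈ chart O j')
    (hsat₁₂ : ∀ v ∈ V, algebraMap O F π₀ * v ∈ chart₁₂ O j j' → v ∈ chart₁₂ O j j')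
    (p : ℕ) (hp : p.Prime) (μ₀ : O) (hμ : μ₀ * (p : O) = 1)
    (hK : ∀ y : F, IsAlgebraic K y → y ∈ (algebraMap K F).range)
    (hE : ∀ P : K[X], P.Monic → Irreducible P →
      ∃ r : E, aeval r (P.map (algebraMap K F)) = 0)
    (n k : ℕ) (hkn : k < n)
    (ζ₀ : O) (hζ₀ : IsPrimitiveRoot ζ₀ (p ^ n))
    (P₁ P₂ : Ideal V) [P₁.IsPrime] [P₂.IsPrime]
    (hπ₁ : (⟨algebraMap O F π₀, hOV π₀⟩ : V) ∈ P₁)
    (hπ₂ : (⟨algebraMap O F π₀, hOV π₀⟩ : V) ∈ P₂)
    (hcap : ∀ v : V, v ∈ P₁ → v ∈ P₂ → ∃ c ∈ V, (v : F) = algebraMap O F π₀ * c)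
    (τ : F ≃+* F) (hτ₁ : ∀ b ∈ chart O j, τ b ∈ chart O j)
    (hτ₂ : ∀ b ∈ chart O j', τ b ∈ chart O j')
    (ε ε' : O) (hεε' : ε * ε' = 1)
    (hε : τ (algebraMap O F π₀) = algebraMap O F ε * algebraMap O F π₀)
    (htriv : ∀ v ∈ V, ∃ c ∈ V, τ v - v = algebraMap O F π₀ * c)
    (hU : ∀ g : F, g ≠ 0 → τ g / g ∈ V ∧ g / τ g ∈ V)
    (f : F) (hf0 : f ≠ 0)
    (hcomp₁ : H7Comp (⟨algebraMap O F π₀, (chart O j).algebraMap_mem π₀⟩ :
      (chart O j).toSubring))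
    (hcomp₂ : H7Comp (⟨algebraMap O F π₀, (chart O j').algebraMap_mem π₀⟩ :
      (chart O j').toSubring))
    (hdiv : ∀ v : Place K F, ((p ^ n : ℕ) : ℤ) ∣ v.ord f)
    (hrat : ∀ v : Place K F, v.ord f ≠ 0 → Fermat.Agent.S24.RH.ResidueTrivial v)
    (g : F) (hg : g ^ (p ^ k) = secondDiff τ f) :
    ∃ y : E, y ^ (p ^ (k + 1)) = algebraMap F E (secondDiff τ f) :=
  Fermat.Agent.S34x.Cross.H18.h18_ss_step (K := K) π₀ hπ₀.prime j j' hjj' hj hfinF V hVic hOV
    hjV hj'V hπV hsat₁ hsat₂ hsat₁₂ p hp μ₀ hμ hK hE n k hkn ζ₀ hζ₀ P₁ P₂ hπ₁ hπ₂ hcap τ hτ₁ hτ₂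
    ε ε' hεε' hε htriv hU f hf0
    (h26_LP_first (K := K) π₀ hπ₀ hj hfinF hcomp₁ (p ^ n) (pow_pos hp.pos n) f hf0 hdiv hrat)
    (h26_LP_second (K := K) π₀ hπ₀ hjj' hj hfinF hcomp₂ (p ^ n) (pow_pos hp.pos n) f hf0 hdiv
      hrat)
    g hg

end Fermat.Agent.S34x.Loc.H26
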