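import Mathlib
import Fermat.Agent.S34x.Loc.H26_NodalLoc

/-!
# S34 (W10): the hypothesis `hunit` of `h26_spec_pow` / `h26_ss_pow` from a crossing point
(helper26)

Abstract setting: `F` a field, `O → F` injective, `π₀ : O` prime, `p` invertible in `O`, `ζ : O` a
primitive `p`-th root of unity; `V∞`, `V0` subrings of `F` containing `O` in which `π₀ V` is a
prime ideal (the two Gauss valuation rings), `B` a subring (a chart) and `𝔫₀` a prime ideal of `B`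
which is a CROSSING POINT: `B ∩ π₀ V∞ ⊆ 𝔫₀`, `B ∩ π₀ V0 ⊆ 𝔫₀`, and `𝔫₀ ∩ O ⊆ π₀ O`.

* `h26_root_unique` : two `p`-th roots of unity of `O` congruent modulo `π₀` are equal;
* `h26_resConst` : `v ∈ V`, `v ^ p ≡ 1 mod π₀ V` (for ONE ring `V` with `π₀ V` prime) implies
  `v ≡ ζ ^ k mod π₀ V` for some `k`;
* `h26_hunit` : the hypothesis `hunit` of `h26_spec_pow` for `V = V∞ ⊓ V0`.
-/

set_option autoImplicit false
set_option linter.style.haveILetI false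

namespace Fermat.Agent.S34x.Loc.H26

section Root

variable {O : Type*} [CommRing O] [IsDomain O]

/-- Two `p`-th roots of unity congruent modulo a prime `π₀` are equal (`p` invertible). -/
theorem h26_root_unique (π₀ : O) (hπ₀ : Prime π₀) (p : ℕ) (μ₀ : O) (hμ : μ₀ * (p : O) = 1)
    (a b : O) (ha : a ^ p = 1) (hb : b ^ p = 1) (hab : π₀ ∣ a - b) : a = b := by
  by_contra hne
  have hsum : (∑ i ∈ Finset.range p, a ^ i * b ^ (p - 1 - i)) * (a - b) = a ^ p - b ^ p :=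
    (Commute.all a b).geom_sum₂_mul p
  rw [ha, hb, sub_self] at hsum
  have hS : (∑ i ∈ Finset.range p, a ^ i * b ^ (p - 1 - i)) = 0 := by
    rcases mul_eq_zero.mp hsum with h | h
    · exact h
    · exact absurd (sub_eq_zero.mp h) hne
  -- modulo `π₀` the sum is `p * b ^ (p - 1)`
  have hcong : π₀ ∣ (∑ i ∈ Finset.range p, a ^ i * b ^ (p - 1 - i)) - (p : O) * b ^ (p - 1) := by
    have hterm : ∀ i ∈ Finset.range p, b ^ i * b ^ (p - 1 - i) = b ^ (p - 1) := by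
      intro i hi
      rw [← pow_add]
      congr 1
      have := Finset.mem_range.mp hi
      omega
    have e : (p : O) * b ^ (p - 1) = ∑ i ∈ Finset.range p, b ^ i * b ^ (p - 1 - i) := by
      rw [Finset.sum_congr rfl hterm, Finset.sum_const, Finset.card_range, nsmul_eq_mul]
    rw [e, ← Finset.sum_sub_distrib]
    refine Finset.dvd_sum (fun i _ => ?_)
    have e2 : a ^ i * b ^ (p - 1 - i) - b ^ i * b ^ (p - 1 - i) =
        (a ^ i - b ^ i) * b ^ (p - 1 - i) := by ring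
    rw [e2]
    exact (hab.trans (sub_dvd_pow_sub_pow a b i)).mul_right _
  rw [hS, zero_sub] at hcong
  have h1 : π₀ ∣ (p : O) * b ^ (p - 1) := (dvd_neg.mp hcong)
  have hp0 : p ≠ 0 := by
    rintro rfl
    simp at hμ
  have hunit : IsUnit ((p : O) * b ^ (p - 1)) := by
    refine IsUnit.mul (IsUnit.of_mul_eq_one μ₀ (by rw [mul_comm]; exact hμ)) ?_
    refine IsUnit.pow _ (IsUnit.of_mul_eq_one (b ^ (p - 1)) ?_)
    rw [← pow_succ', Nat.sub_add_cancel (Nat.pos_of_ne_zero hp0), hb]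
  exact hπ₀.not_isUnit (isUnit_of_dvd_unit h1 hunit)

end Root

section Res

variable {O F : Type*} [CommRing O] [Field F] [Algebra O F]

/-- **Residue constants.**  If `π V` is a prime ideal of `V ⊇ O` and `ζ` is a primitive `p`-th
root of unity, then `v ^ p ≡ 1 mod π V` implies `v ≡ ζ ^ k mod π V` for some `k`. -/
theorem h26_resConst (V : Subring F) (π : F) (hOV : ∀ c : O, algebraMap O F c ∈ V)
    (hπV : ∀ v ∈ V, π * v ≠ 1)
    (hprime : ∀ a ∈ V, ∀ b ∈ V, (∃ c ∈ V, a * b = π * c) →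
      (∃ c ∈ V, a = π * c) ∨ (∃ c ∈ V, b = π * c))
    (p : ℕ) (hp : 0 < p) (ζ : O) (hζ : IsPrimitiveRoot (algebraMap O F ζ) p)
    (v : F) (hv : v ∈ V) (hvp : ∃ c ∈ V, v ^ p - 1 = π * c) :
    ∃ k : ℕ, ∃ c ∈ V, v - algebraMap O F (ζ ^ k) = π * c := by
  classical
  have hprod : v ^ p - 1 = ∏ μ ∈ Polynomial.nthRootsFinset p (1 : F), (v - μ) := by
    have h := hζ.pow_sub_pow_eq_prod_sub_mul v 1 hp
    simpa using h
  rw [hprod] at hvp
  -- a product in `π V` has a factor in `π V`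
  have key : ∀ s : Finset F, (∀ μ ∈ s, μ ∈ V) → (∃ c ∈ V, ∏ μ ∈ s, (v - μ) = π * c) →
      ∃ μ ∈ s, ∃ c ∈ V, v - μ = π * c := by
    intro s
    induction s using Finset.induction_on with
    | empty =>
      rintro - ⟨c, hc, h⟩
      rw [Finset.prod_empty] at h
      exact absurd h.symm (hπV c hc)
    | insert a s ha ih =>
      intro hs h
      rw [Finset.prod_insert ha] at h
      have hsV : ∀ μ ∈ s, μ ∈ V := fun μ hμ => hs μ (Finset.mem_insert_of_mem hμ)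
      have haV : v - a ∈ V := V.sub_mem hv (hs a (Finset.mem_insert_self a s))
      have hpV : ∏ μ ∈ s, (v - μ) ∈ V :=
        Subring.prod_mem V (fun μ hμ => V.sub_mem hv (hsV μ hμ))
      rcases hprime _ haV _ hpV h with h1 | h1
      · exact ⟨a, Finset.mem_insert_self a s, h1⟩
      · obtain ⟨μ, hμ, hc⟩ := ih hsV h1
        exact ⟨μ, Finset.mem_insert_of_mem hμ, hc⟩
  haveI : NeZero p := ⟨hp.ne'⟩
  have hroots : ∀ μ ∈ Polynomial.nthRootsFinset p (1 : F), ∃ k : ℕ,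
      algebraMap O F (ζ ^ k) = μ := by
    intro μ hμ
    rw [Polynomial.mem_nthRootsFinset hp] at hμ
    obtain ⟨k, -, hk⟩ := hζ.eq_pow_of_pow_eq_one hμ
    exact ⟨k, by rw [map_pow, hk]⟩
  obtain ⟨μ, hμ, c, hc, hvc⟩ := key _ (fun μ hμ => by
    obtain ⟨k, hk⟩ := hroots μ hμ
    rw [← hk]
    exact hOV _) hvp
  obtain ⟨k, hk⟩ := hroots μ hμ
  exact ⟨k, c, hc, by rw [hk]; exact hvc⟩

end Res

section Unit

variable {O F : Type*} [CommRing O] [IsDomain O] [Field F] [Algebra O F]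

/-- **The hypothesis `hunit` of `h26_spec_pow` from a crossing point.** -/
theorem h26_hunit (hinj : Function.Injective (algebraMap O F))
    (π₀ : O) (hπ₀ : Prime π₀) (p : ℕ) (hp : 0 < p) (μ₀ : O) (hμ : μ₀ * (p : O) = 1)
    (ζ : O) (hζ : IsPrimitiveRoot ζ p)
    (B Vi Vz : Subring F) (hBVi : B ≤ Vi) (hBVz : B ≤ Vz) (hOB : ∀ c : O, algebraMap O F c ∈ B)
    (hOVi : ∀ c : O, algebraMap O F c ∈ Vi) (hOVz : ∀ c : O, algebraMap O F c ∈ Vz)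
    (hπVi : ∀ v ∈ Vi, algebraMap O F π₀ * v ≠ 1) (hπVz : ∀ v ∈ Vz, algebraMap O F π₀ * v ≠ 1)
    (hprimei : ∀ a ∈ Vi, ∀ b ∈ Vi, (∃ c ∈ Vi, a * b = algebraMap O F π₀ * c) →
      (∃ c ∈ Vi, a = algebraMap O F π₀ * c) ∨ (∃ c ∈ Vi, b = algebraMap O F π₀ * c))
    (hprimez : ∀ a ∈ Vz, ∀ b ∈ Vz, (∃ c ∈ Vz, a * b = algebraMap O F π₀ * c) →
      (∃ c ∈ Vz, a = algebraMap O F π₀ * c) ∨ (∃ c ∈ Vz, b = algebraMap O F π₀ * c))
    (𝔫₀ : Ideal B) [𝔫₀.IsPrime]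
    (hXi : ∀ b : B, (∃ c ∈ Vi, (b : F) = algebraMap O F π₀ * c) → b ∈ 𝔫₀)
    (hXz : ∀ b : B, (∃ c ∈ Vz, (b : F) = algebraMap O F π₀ * c) → b ∈ 𝔫₀)
    (hXO : ∀ c : O, (⟨algebraMap O F c, hOB c⟩ : B) ∈ 𝔫₀ → π₀ ∣ c) :
    ∀ v ∈ Vi ⊓ Vz, (∃ s : B, s ∉ 𝔫₀ ∧ (s : F) * v ∈ B) →
      (∃ c ∈ Vi ⊓ Vz, v ^ p - 1 = algebraMap O F π₀ * c) →
      ∃ ζ' : O, ζ' ^ p = 1 ∧ ∃ c ∈ Vi ⊓ Vz, v - algebraMap O F ζ' = algebraMap O F π₀ * c := by
  intro v hv ⟨s, hs, hsv⟩ ⟨c, hc, hvc⟩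
  have hζF : IsPrimitiveRoot (algebraMap O F ζ) p := hζ.map_of_injective hinj
  have hπ0 : algebraMap O F π₀ ≠ 0 := (map_ne_zero_iff _ hinj).mpr hπ₀.ne_zero
  obtain ⟨k₁, c₁, hc₁, h₁⟩ := h26_resConst Vi (algebraMap O F π₀) hOVi hπVi hprimei p hp ζ hζF v
    (Subring.mem_inf.mp hv).1 ⟨c, (Subring.mem_inf.mp hc).1, hvc⟩
  obtain ⟨k₂, c₂, hc₂, h₂⟩ := h26_resConst Vz (algebraMap O F π₀) hOVz hπVz hprimez p hp ζ hζF v
    (Subring.mem_inf.mp hv).2 ⟨c, (Subring.mem_inf.mp hc).2, hvc⟩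
  -- `s v - s ζ^k₁ ∈ B ∩ π V∞` and `s v - s ζ^k₂ ∈ B ∩ π V0`
  have hm₁ : (⟨(s : F) * v, hsv⟩ : B) - s * ⟨algebraMap O F (ζ ^ k₁), hOB _⟩ ∈ 𝔫₀ := by
    refine hXi _ ⟨(s : F) * c₁, Vi.mul_mem (hBVi s.2) hc₁, ?_⟩
    have e : (s : F) * v - (s : F) * algebraMap O F (ζ ^ k₁) =
        (s : F) * (v - algebraMap O F (ζ ^ k₁)) := by ring
    show (s : F) * v - (s : F) * algebraMap O F (ζ ^ k₁) = _
    rw [e, h₁]
    ring
  have hm₂ : (⟨(s : F) * v, hsv⟩ : B) - s * ⟨algebraMap O F (ζ ^ k₂), hOB _⟩ ∈ 𝔫₀ := by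
    refine hXz _ ⟨(s : F) * c₂, Vz.mul_mem (hBVz s.2) hc₂, ?_⟩
    have e : (s : F) * v - (s : F) * algebraMap O F (ζ ^ k₂) =
        (s : F) * (v - algebraMap O F (ζ ^ k₂)) := by ring
    show (s : F) * v - (s : F) * algebraMap O F (ζ ^ k₂) = _
    rw [e, h₂]
    ring
  have hdiff : s * (⟨algebraMap O F (ζ ^ k₁ - ζ ^ k₂), hOB _⟩ : B) ∈ 𝔫₀ := by
    have e : s * (⟨algebraMap O F (ζ ^ k₁ - ζ ^ k₂), hOB _⟩ : B) =
        ((⟨(s : F) * v, hsv⟩ : B) - s * ⟨algebraMap O F (ζ ^ k₂), hOB _⟩) -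
          ((⟨(s : F) * v, hsv⟩ : B) - s * ⟨algebraMap O F (ζ ^ k₁), hOB _⟩) := by
      apply Subtype.ext
      show (s : F) * algebraMap O F (ζ ^ k₁ - ζ ^ k₂) =
        ((s : F) * v - (s : F) * algebraMap O F (ζ ^ k₂)) -
          ((s : F) * v - (s : F) * algebraMap O F (ζ ^ k₁))
      rw [map_sub]
      ring
    rw [e]
    exact 𝔫₀.sub_mem hm₂ hm₁
  have hdvd : π₀ ∣ ζ ^ k₁ - ζ ^ k₂ := by
    rcases Ideal.IsPrime.mem_or_mem inferInstance hdiff with h | h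
    · exact absurd h hs
    · exact hXO _ h
  have hpow : ∀ k : ℕ, (ζ ^ k) ^ p = 1 := fun k => by
    rw [← pow_mul, mul_comm, pow_mul, hζ.pow_eq_one, one_pow]
  have heq : ζ ^ k₁ = ζ ^ k₂ :=
    h26_root_unique π₀ hπ₀ p μ₀ hμ _ _ (hpow k₁) (hpow k₂) hdvd
  refine ⟨ζ ^ k₁, hpow k₁, c₁, Subring.mem_inf.mpr ⟨hc₁, ?_⟩, h₁⟩
  have hcc : c₁ = c₂ := by
    have h3 : algebraMap O F π₀ * c₁ = algebraMap O F π₀ * c₂ := by
      rw [← h₁, ← h₂, heq]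
    exact mul_left_cancel₀ hπ0 h3
  rw [hcc]
  exact hc₂

end Unit

end Fermat.Agent.S34x.Loc.H26
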